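import Fermat.Agent.S53.Schur

/-!
# S58: the Gram criterion for absolute irreducibility in dimension 2 (helper99)

For `2 × 2` matrices `X_p` (`p ∈ Fin 2 × Fin 2`) the Gram matrix `tr (X_p X_q)` of the trace
form is `F S Fᵀ`, `F` the `4 × 4` matrix of the flattened `X_p` and `S` the permutation matrix
of the transposition; so its determinant is `± det F ^ 2`.

* `exists_gram_ne_zero_of_span`: if the `r g` span `End V` there are four group elements with
  invertible Gram matrix `tr r (g_p g_q)`.
* `isAbsolutelyIrreducible_of_gram`: a residual representation with four elements with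
  invertible Gram matrix is absolutely irreducible.
-/

set_option autoImplicit false

open Matrix

namespace Fermat.Agent.S58.H99

open Fermat.Agent.S53.Schur

section Matrices

variable {R : Type*} [CommRing R]

/-- The matrix of the transposition on flattened `2 × 2` matrices. -/
def swapMat (R : Type*) [CommRing R] : Matrix (Fin 2 × Fin 2) (Fin 2 × Fin 2) R :=
  Matrix.of fun a b => if a.1 = b.2 ∧ a.2 = b.1 then 1 else 0

/-- The Gram matrix of the trace form. -/
def gramMat (X : Fin 2 × Fin 2 → Matrix (Fin 2) (Fin 2) R) :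
    Matrix (Fin 2 × Fin 2) (Fin 2 × Fin 2) R :=
  Matrix.of fun p q => (X p * X q).trace

theorem swapMat_mul_self : swapMat R * swapMat R = 1 := by
  ext ⟨a1, a2⟩ ⟨b1, b2⟩
  simp only [swapMat, Matrix.mul_apply, Matrix.of_apply, Fintype.sum_prod_type,
    Fin.sum_univ_two, Matrix.one_apply, Prod.mk.injEq]
  fin_cases a1 <;> fin_cases a2 <;> fin_cases b1 <;> fin_cases b2 <;> simp

theorem isUnit_det_swapMat : IsUnit (swapMat R).det := by
  have h := congrArg Matrix.det (swapMat_mul_self (R := R))
  rw [Matrix.det_mul, Matrix.det_one] at h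
  exact IsUnit.of_mul_eq_one _ h

theorem gramMat_eq (X : Fin 2 × Fin 2 → Matrix (Fin 2) (Fin 2) R) :
    gramMat X = flat X * swapMat R * (flat X)ᵀ := by
  ext p q
  simp only [gramMat, swapMat, flat, Matrix.mul_apply, Matrix.of_apply, Matrix.trace,
    Matrix.diag_apply, Matrix.transpose_apply, Fintype.sum_prod_type, Fin.sum_univ_two]
  simp
  ring

theorem det_gramMat (X : Fin 2 × Fin 2 → Matrix (Fin 2) (Fin 2) R) :
    (gramMat X).det = (flat X).det ^ 2 * (swapMat R).det := by
  rw [gramMat_eq, Matrix.det_mul, Matrix.det_mul, Matrix.det_transpose]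
  ring

theorem det_gramMat_ne_zero [IsDomain R] (X : Fin 2 × Fin 2 → Matrix (Fin 2) (Fin 2) R)
    (h : (flat X).det ≠ 0) : (gramMat X).det ≠ 0 := by
  rw [det_gramMat]
  exact mul_ne_zero (pow_ne_zero 2 h) isUnit_det_swapMat.ne_zero

theorem det_flat_eq_zero_of_gram (X : Fin 2 × Fin 2 → Matrix (Fin 2) (Fin 2) R)
    (h : (flat X).det = 0) : (gramMat X).det = 0 := by
  rw [det_gramMat, h]
  ring

theorem gramMat_map {S : Type*} [CommRing S] (f : R →+* S)
    (X : Fin 2 × Fin 2 → Matrix (Fin 2) (Fin 2) R) :
    gramMat (fun p => (X p).map f) = (gramMat X).map f := by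
  ext p q
  simp only [gramMat, Matrix.of_apply, Matrix.map_apply]
  rw [← Matrix.map_mul, Matrix.trace, Matrix.trace, map_sum]
  rfl

end Matrices

section Span

variable {F : Type*} [Field F] {V : Type*} [AddCommGroup V] [Module F V]

/-- If the `r g` span `End V` (`V` of dimension 2), four of them are linearly independent. -/
theorem exists_flat_det_ne_zero_of_span {G : Type*} [Monoid G] (r : G →* Module.End F V)
    (hspan : Submodule.span F (Set.range r) = ⊤) (b : Module.Basis (Fin 2) F V) :
    ∃ g : Fin 2 × Fin 2 → G, (flat fun p => LinearMap.toMatrix b b (r (g p))).det ≠ 0 := by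
  classical
  let e : Module.End F V ≃ₗ[F] Matrix (Fin 2) (Fin 2) F := LinearMap.toMatrix b b
  let m : G → Matrix (Fin 2) (Fin 2) F := fun σ => LinearMap.toMatrix b b (r σ)
  have hspan' : Submodule.span F (Set.range m) = ⊤ := by
    have := congrArg (Submodule.map (e : Module.End F V →ₗ[F] Matrix (Fin 2) (Fin 2) F)) hspan
    rw [Submodule.map_span, Submodule.map_top, LinearMap.range_eq_top.2 e.surjective] at this
    rw [← this]
    congr 1
    ext X
    constructor
    · rintro ⟨σ, rfl⟩
      exact ⟨r σ, ⟨σ, rfl⟩, rfl⟩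
    · rintro ⟨_, ⟨σ, rfl⟩, rfl⟩
      exact ⟨σ, rfl⟩
  obtain ⟨f, hf, -, hli⟩ := Submodule.exists_fun_fin_finrank_span_eq F (Set.range m)
  have hrank : Module.finrank F (Submodule.span F (Set.range m)) = 2 * 2 := by
    rw [hspan', finrank_top, Module.finrank_matrix]
    simp
  let eq : Fin 2 × Fin 2 ≃ Fin (Module.finrank F (Submodule.span F (Set.range m))) :=
    finProdFinEquiv.trans (finCongr hrank.symm)
  choose g hg using fun p => hf (eq p)
  refine ⟨g, ?_⟩
  have hli' : LinearIndependent F (fun p => flatten F (m (g p))) := by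
    have h1 : LinearIndependent F (fun p => f (eq p)) := hli.comp _ eq.injective
    have h2 := h1.map' (flatten F) (LinearMap.ker_eq_bot.2 (flatten_injective F))
    have h3 : (fun p => flatten F (m (g p))) = (flatten F) ∘ fun p => f (eq p) := by
      funext p
      simp only [Function.comp_apply, hg p]
    rw [h3]
    exact h2
  have hunit : IsUnit (flat fun p => m (g p)) :=
    Matrix.linearIndependent_rows_iff_isUnit.1 hli'
  exact ((Matrix.isUnit_iff_isUnit_det _).1 hunit).ne_zero

/-- The Gram matrix of traces in terms of matrices. -/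
theorem gram_trace_eq {G : Type*} [Monoid G] (r : G →* Module.End F V)
    (b : Module.Basis (Fin 2) F V) (g : Fin 2 × Fin 2 → G) :
    (Matrix.of fun p q => LinearMap.trace F V (r (g p * g q))) =
      gramMat fun p => LinearMap.toMatrix b b (r (g p)) := by
  ext p q
  simp only [gramMat, Matrix.of_apply]
  rw [map_mul, LinearMap.trace_eq_matrix_trace F b, Module.End.mul_eq_comp,
    LinearMap.toMatrix_comp b b b]

/-- If the `r g` span `End V`, four group elements have an invertible Gram matrix. -/
theorem exists_gram_ne_zero_of_span (hV : Module.finrank F V = 2) {G : Type*} [Monoid G]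
    (r : G →* Module.End F V) (hspan : Submodule.span F (Set.range r) = ⊤) :
    ∃ g : Fin 2 × Fin 2 → G,
      (Matrix.of fun p q => LinearMap.trace F V (r (g p * g q))).det ≠ 0 := by
  have : Module.Finite F V := Module.finite_of_finrank_eq_succ hV
  let b : Module.Basis (Fin 2) F V := Module.finBasisOfFinrankEq F V hV
  obtain ⟨g, hg⟩ := exists_flat_det_ne_zero_of_span r hspan b
  refine ⟨g, ?_⟩
  rw [gram_trace_eq r b g]
  exact det_gramMat_ne_zero _ hg

/-- If all `r g` preserve a proper nonzero subspace, every Gram matrix is singular. -/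
theorem gram_det_eq_zero_of_stable (hV : Module.finrank F V = 2) {G : Type*} [Monoid G]
    (r : G →* Module.End F V) (W : Submodule F V) (hW : ∀ σ, ∀ x ∈ W, r σ x ∈ W)
    (h0 : W ≠ ⊥) (h1 : W ≠ ⊤) (g : Fin 2 × Fin 2 → G) :
    (Matrix.of fun p q => LinearMap.trace F V (r (g p * g q))).det = 0 := by
  classical
  have : Module.Finite F V := Module.finite_of_finrank_eq_succ hV
  obtain ⟨w, hwW, hw0⟩ := Submodule.exists_mem_ne_zero_of_ne_bot h0
  obtain ⟨v, hvW⟩ : ∃ v : V, v ∉ W := by
    by_contra hcon
    push Not at hcon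
    exact h1 (eq_top_iff.mpr fun x _ => hcon x)
  -- `w, v` is a basis
  have hli : LinearIndependent F ![w, v] := by
    rw [LinearIndependent.pair_iff]
    intro s t hst
    have ht : t = 0 := by
      by_contra ht
      apply hvW
      have : v = (-(t⁻¹ * s)) • w := by
        have h2 : t • v = -(s • w) := eq_neg_of_add_eq_zero_right hst
        calc v = t⁻¹ • (t • v) := by rw [smul_smul, inv_mul_cancel₀ ht, one_smul]
          _ = (-(t⁻¹ * s)) • w := by rw [h2, smul_neg, smul_smul, neg_smul]
      rw [this]
      exact W.smul_mem _ hwW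
    refine ⟨?_, ht⟩
    rw [ht, zero_smul, add_zero] at hst
    exact (smul_eq_zero.mp hst).resolve_right hw0
  let b : Module.Basis (Fin 2) F V :=
    basisOfLinearIndependentOfCardEqFinrank hli (by rw [hV]; simp)
  have hb0 : b 0 = w := by
    simp [b, coe_basisOfLinearIndependentOfCardEqFinrank]
  have hb1 : b 1 = v := by
    simp [b, coe_basisOfLinearIndependentOfCardEqFinrank]
  -- the lower left entries vanish
  have hentry : ∀ σ, LinearMap.toMatrix b b (r σ) 1 0 = 0 := by
    intro σ
    rw [LinearMap.toMatrix_apply, hb0]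
    by_contra hne
    apply hvW
    have hmem := hW σ w hwW
    have hsum := b.sum_repr (r σ w)
    rw [Fin.sum_univ_two, hb0, hb1] at hsum
    set a := b.repr (r σ w) 0
    set c := b.repr (r σ w) 1
    have : v = c⁻¹ • (r σ w - a • w) := by
      rw [← hsum, add_sub_cancel_left, smul_smul, inv_mul_cancel₀ hne, one_smul]
    rw [this]
    exact W.smul_mem _ (W.sub_mem hmem (W.smul_mem _ hwW))
  rw [gram_trace_eq r b g]
  apply det_flat_eq_zero_of_gram
  apply Matrix.det_eq_zero_of_column_eq_zero ((1 : Fin 2), (0 : Fin 2))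
  intro p
  rw [flat_apply]
  exact hentry (g p)

end Span

section Residual

/-- **Gram criterion.**  A residual representation with four elements whose Gram matrix of
traces is invertible is absolutely irreducible. -/
theorem isAbsolutelyIrreducible_of_gram {k : Type} [Field k] (ρbar : ResidualGaloisRep k)
    (g : Fin 2 × Fin 2 → (AlgebraicClosure ℚ ≃ₐ[ℚ] AlgebraicClosure ℚ))
    (h : (Matrix.of fun p q => LinearMap.trace k ρbar.V (ρbar.ρ (g p * g q))).det ≠ 0) :
    ρbar.IsAbsolutelyIrreducible := by
  classical
  intro W hW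
  by_contra hcon
  rw [not_or] at hcon
  apply h
  have hfin : Module.finrank (AlgebraicClosure k) (ρbar.baseChange (AlgebraicClosure k)).V = 2 :=
    (ρbar.baseChange (AlgebraicClosure k)).finrank_eq
  have hz := gram_det_eq_zero_of_stable hfin (ρbar.baseChange (AlgebraicClosure k)).ρ W hW
    hcon.1 hcon.2 g
  have hmap : (Matrix.of fun p q => LinearMap.trace (AlgebraicClosure k)
      (ρbar.baseChange (AlgebraicClosure k)).V
        ((ρbar.baseChange (AlgebraicClosure k)).ρ (g p * g q))) =
      (Matrix.of fun p q => LinearMap.trace k ρbar.V (ρbar.ρ (g p * g q))).map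
        (algebraMap k (AlgebraicClosure k)) := by
    ext p q
    simp only [Matrix.of_apply, Matrix.map_apply]
    exact LinearMap.trace_baseChange (ρbar.ρ (g p * g q)) (AlgebraicClosure k)
  rw [hmap, ← RingHom.mapMatrix_apply, ← RingHom.map_det] at hz
  exact (map_eq_zero (algebraMap k (AlgebraicClosure k))).mp hz

end Residual

end Fermat.Agent.S58.H99
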