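import Fermat.Agent.Lib.FrobExists
import Fermat.Agent.Lib.FrobDensity.H97_Bridge
import Mathlib.RingTheory.RootsOfUnity.AlgebraicallyClosed

/-!
# S58: Frobenius elements and roots of unity (helper99)

A Frobenius element at a place over `ℓ` raises every root of unity of prime order `p ≠ ℓ` to
its `ℓ`-th power.
-/

set_option autoImplicit false

namespace Fermat.Agent.S58.H99

open Fermat.Agent.Lib.FrobExists

/-- A `p`-th root of unity congruent to `1` at a place of residue characteristic `ℓ ≠ p` is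
`1`. -/
theorem root_eq_one_of_valuation_lt {L : Type*} [Field L] (P : ValuationSubring L) {ℓ p : ℕ}
    (hℓ : ℓ.Prime) (hp : p.Prime) (hpℓ : p ≠ ℓ) (hP : P.valuation (ℓ : L) < 1)
    (ξ : L) (hξ : ξ ^ p = 1) (hv : P.valuation (ξ - 1) < 1) : ξ = 1 := by
  by_contra hne
  have hvξ : P.valuation ξ ≤ 1 := by
    have h1 : ξ = (ξ - 1) + 1 := by ring
    rw [h1]
    refine le_trans (P.valuation.map_add _ _) (max_le hv.le ?_)
    rw [map_one]
  have hsum : ∑ i ∈ Finset.range p, ξ ^ i = 0 := by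
    have h := mul_geom_sum ξ p
    rw [hξ, sub_self] at h
    exact (mul_eq_zero.mp h).resolve_left (sub_ne_zero.mpr hne)
  have hp_eq : (p : L) = ∑ i ∈ Finset.range p, (1 - ξ ^ i) := by
    rw [Finset.sum_sub_distrib, hsum, sub_zero]
    simp
  have hterm : ∀ i ∈ Finset.range p, P.valuation (1 - ξ ^ i) < 1 := by
    intro i _
    have h := mul_geom_sum ξ i
    have h2 : 1 - ξ ^ i = -((ξ - 1) * ∑ k ∈ Finset.range i, ξ ^ k) := by rw [h]; ring
    rw [h2, Valuation.map_neg, map_mul]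
    refine mul_lt_one_of_lt_of_le hv ?_
    refine Valuation.map_sum_le _ fun k _ => ?_
    rw [map_pow]
    exact pow_le_one₀ zero_le hvξ
  have hvp : P.valuation (p : L) < 1 := by
    rw [hp_eq]
    exact Valuation.map_sum_lt _ one_ne_zero hterm
  -- `p` and `ℓ` are coprime
  have hcop : IsCoprime (p : ℤ) (ℓ : ℤ) := by
    rw [Int.isCoprime_iff_gcd_eq_one, Int.gcd_natCast_natCast]
    exact (Nat.coprime_primes hp hℓ).mpr hpℓ
  obtain ⟨u, w, huw⟩ := hcop
  have h1 : (1 : L) = (u : L) * (p : L) + (w : L) * (ℓ : L) := by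
    have := congrArg (Int.cast : ℤ → L) huw
    push_cast at this
    exact this.symm
  have hlt : P.valuation (1 : L) < 1 := by
    rw [h1]
    refine lt_of_le_of_lt (P.valuation.map_add _ _) (max_lt ?_ ?_)
    · rw [map_mul, mul_comm]
      exact mul_lt_one_of_lt_of_le hvp (valuation_intCast_le_one P u)
    · rw [map_mul, mul_comm]
      exact mul_lt_one_of_lt_of_le hP (valuation_intCast_le_one P w)
  rw [map_one] at hlt
  exact lt_irrefl _ hlt

/-- A Frobenius element at `ℓ` raises the `p`-th roots of unity, `p ≠ ℓ`, to the `ℓ`-th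
power. -/
theorem frobenius_root (P : ValuationSubring (AlgebraicClosure ℚ))
    (φ : AlgebraicClosure ℚ ≃ₐ[ℚ] AlgebraicClosure ℚ) {ℓ p : ℕ} (hℓ : ℓ.Prime) (hp : p.Prime)
    (hpℓ : p ≠ ℓ) (hP : P.LiesOverPrime ℓ) (hφ : P.IsFrobeniusAt φ ℓ)
    (ζ : AlgebraicClosure ℚ) (hζ : ζ ^ p = 1) : φ ζ = ζ ^ ℓ := by
  have hζint : IsIntegral ℤ ζ := IsIntegral.of_pow hp.pos (by rw [hζ]; exact isIntegral_one)
  have hζP : ζ ∈ P := (P.valuation_le_one_iff ζ).mp (valuation_le_one_of_isIntegral P ζ hζint)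
  have hv := Fermat.Agent.Lib.FrobDensity.H97.valuation_frob_sub_pow_lt_one P φ ℓ hφ ζ hζP
  have hvℓ : P.valuation ((ℓ : ℕ) : AlgebraicClosure ℚ) < 1 := by
    have h := hP
    unfold ValuationSubring.LiesOverPrime at h
    rw [P.mem_nonunits_iff] at h
    exact h
  -- `β = ζ ^ ℓ` has valuation `≤ 1`
  set α := φ ζ with hα
  set β := ζ ^ ℓ with hβ
  have hαp : α ^ p = 1 := by rw [hα, ← map_pow, hζ, map_one]
  have hβp : β ^ p = 1 := by rw [hβ, ← pow_mul, mul_comm, pow_mul, hζ, one_pow]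
  have hβint : IsIntegral ℤ β := IsIntegral.of_pow hp.pos (by rw [hβp]; exact isIntegral_one)
  have hvβ : P.valuation β ≤ 1 := valuation_le_one_of_isIntegral P β hβint
  have hβ1 : β * β ^ (p - 1) = 1 := by
    rw [← pow_succ', Nat.sub_add_cancel hp.pos, hβp]
  have hξ : (α * β ^ (p - 1)) ^ p = 1 := by
    rw [mul_pow, hαp, one_mul, ← pow_mul, mul_comm, pow_mul, hβp, one_pow]
  have hsub : α * β ^ (p - 1) - 1 = (α - β) * β ^ (p - 1) := by
    rw [sub_mul, hβ1]
  have hvξ : P.valuation (α * β ^ (p - 1) - 1) < 1 := by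
    rw [hsub, map_mul, map_pow]
    exact mul_lt_one_of_lt_of_le hv (pow_le_one₀ zero_le hvβ)
  have h1 := root_eq_one_of_valuation_lt P hℓ hp hpℓ hvℓ _ hξ hvξ
  have hβ0 : β ^ (p - 1) ≠ 0 := by
    intro h0
    rw [h0, mul_zero] at hβ1
    exact zero_ne_one hβ1
  exact mul_right_cancel₀ hβ0 (h1.trans hβ1.symm)

/-- Powers of a Frobenius element on roots of unity. -/
theorem frobenius_pow_root (P : ValuationSubring (AlgebraicClosure ℚ))
    (φ : AlgebraicClosure ℚ ≃ₐ[ℚ] AlgebraicClosure ℚ) {ℓ p : ℕ} (hℓ : ℓ.Prime) (hp : p.Prime)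
    (hpℓ : p ≠ ℓ) (hP : P.LiesOverPrime ℓ) (hφ : P.IsFrobeniusAt φ ℓ)
    (ζ : AlgebraicClosure ℚ) (hζ : ζ ^ p = 1) (j : ℕ) : (φ ^ j) ζ = ζ ^ (ℓ ^ j) := by
  induction j with
  | zero => simp
  | succ j ih =>
    rw [pow_succ', AlgEquiv.mul_apply, ih, map_pow, frobenius_root P φ hℓ hp hpℓ hP hφ ζ hζ,
      ← pow_mul, pow_succ']

/-- A nontrivial `p`-th root of unity in `ℚ̄`. -/
theorem exists_root_ne_one {p : ℕ} (hp : p.Prime) :
    ∃ ζ : AlgebraicClosure ℚ, ζ ^ p = 1 ∧ ζ ≠ 1 := by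
  have : NeZero (p : ℚ) := ⟨by exact_mod_cast hp.ne_zero⟩
  obtain ⟨ζ, hζ⟩ := HasEnoughRootsOfUnity.exists_primitiveRoot (AlgebraicClosure ℚ) p
  exact ⟨ζ, hζ.pow_eq_one, hζ.ne_one hp.one_lt⟩

end Fermat.Agent.S58.H99
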