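import Mathlib

/-!
# S58: an involution of an algebraically closed field of characteristic `0` inverts the roots
of unity of odd order (helper99)

Elementary part of the Artin–Schreier theorem.  Let `c ≠ 1` be an involution of the
algebraically closed field `K`, `F` its fixed field.
1. There is `j` with `j ^ 2 = -1` and `c j = -j`.
2. A sum of two squares of `F` is a square of `F` (norm of a square root of `x + j y`).
3. Hence a sum of squares of `F` is a square of `F`, and `-1` is not a sum of squares of `F`.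
4. A root of unity `ζ ≠ 1` of odd order `m` in `F` would give `0 = ∑_{i<m} (η ^ i) ^ 2` with
   `η = ζ ^ ((m+1)/2) ∈ F`, so `-1` would be a sum of squares.
5. For any root of unity `ζ` of odd order, `ζ * c ζ` is fixed by `c`, hence equal to `1`.
-/

set_option autoImplicit false

namespace Fermat.Agent.S58.H99

section Involution

variable {K : Type*} [Field K] [IsAlgClosed K] [CharZero K] (c : K →+* K)

/-- Step 1: a square root of `-1` which is negated by `c`. -/
theorem exists_sqrt_neg_one (hcc : ∀ x, c (c x) = x) (hc1 : ∃ z, c z ≠ z) :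
    ∃ j : K, j * j = -1 ∧ c j = -j := by
  obtain ⟨z, hz⟩ := hc1
  set d := z - c z with hd
  have hd0 : d ≠ 0 := sub_ne_zero.mpr (Ne.symm hz)
  have hcd : c d = -d := by rw [hd, map_sub, hcc]; ring
  obtain ⟨w, hw⟩ := IsAlgClosed.exists_pow_nat_eq d (n := 2) (by norm_num)
  have hw0 : w ≠ 0 := by
    rintro rfl
    apply hd0
    rw [← hw]; ring
  have hcw0 : c w ≠ 0 := (map_ne_zero c).mpr hw0
  have hcw : c w * c w = -(w * w) := by
    have h1 : c w * c w = c (w ^ 2) := by rw [pow_two, map_mul]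
    rw [h1, hw, hcd, ← hw, pow_two]
  refine ⟨c w * w⁻¹, ?_, ?_⟩
  · calc c w * w⁻¹ * (c w * w⁻¹) = (c w * c w) * (w⁻¹ * w⁻¹) := by ring
      _ = -((w * w⁻¹) * (w * w⁻¹)) := by rw [hcw]; ring
      _ = -1 := by rw [mul_inv_cancel₀ hw0]; ring
  · rw [map_mul, hcc, map_inv₀]
    have h2 : w * (c w)⁻¹ + c w * w⁻¹ = (w * w + c w * c w) * ((c w)⁻¹ * w⁻¹) := by
      field_simp
    have h3 : w * (c w)⁻¹ + c w * w⁻¹ = 0 := by
      rw [h2, hcw]; ring
    exact eq_neg_of_add_eq_zero_left h3

/-- Step 2: a sum of two squares of fixed elements is the square of a fixed element. -/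
theorem exists_sq_eq_add_sq (hcc : ∀ x, c (c x) = x) {j : K} (hj : j * j = -1)
    (hcj : c j = -j) (x y : K) (hx : c x = x) (hy : c y = y) :
    ∃ z : K, c z = z ∧ z * z = x * x + y * y := by
  obtain ⟨u, hu⟩ := IsAlgClosed.exists_pow_nat_eq (x + j * y) (n := 2) (by norm_num)
  refine ⟨u * c u, ?_, ?_⟩
  · rw [map_mul, hcc, mul_comm]
  · have h1 : c u * c u = x - j * y := by
      rw [← map_mul, ← pow_two, hu, map_add, map_mul, hx, hy, hcj]; ring
    have h2 : u * u = x + j * y := by rw [← pow_two, hu]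
    calc u * c u * (u * c u) = (u * u) * (c u * c u) := by ring
      _ = (x + j * y) * (x - j * y) := by rw [h1, h2]
      _ = x * x - (j * j) * (y * y) := by ring
      _ = x * x + y * y := by rw [hj]; ring

/-- Step 3: a finite sum of squares of fixed elements is the square of a fixed element. -/
theorem exists_sq_eq_sum_sq (hcc : ∀ x, c (c x) = x) {j : K} (hj : j * j = -1)
    (hcj : c j = -j) (f : ℕ → K) (hf : ∀ i, c (f i) = f i) (n : ℕ) :
    ∃ z : K, c z = z ∧ z * z = ∑ i ∈ Finset.range n, f i * f i := by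
  induction n with
  | zero => exact ⟨0, map_zero c, by simp⟩
  | succ n ih =>
    obtain ⟨z₀, hz₀, hz₀'⟩ := ih
    obtain ⟨z, hz, hz'⟩ := exists_sq_eq_add_sq c hcc hj hcj z₀ (f n) hz₀ (hf n)
    exact ⟨z, hz, by rw [Finset.sum_range_succ, ← hz₀', hz']⟩

/-- Step 4: the only root of unity of odd order fixed by `c` is `1`. -/
theorem eq_one_of_fixed (hcc : ∀ x, c (c x) = x) (hc1 : ∃ z, c z ≠ z) {m : ℕ} (hm : Odd m)
    (ζ : K) (hζ : ζ ^ m = 1) (hfix : c ζ = ζ) : ζ = 1 := by
  by_contra hne
  obtain ⟨j, hj, hcj⟩ := exists_sqrt_neg_one c hcc hc1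
  obtain ⟨k, rfl⟩ := hm
  set η := ζ ^ (k + 1) with hη
  have hηη : η * η = ζ := by
    rw [hη, ← pow_add]
    have : k + 1 + (k + 1) = (2 * k + 1) + 1 := by ring
    rw [this, pow_succ, hζ, one_mul]
  have hcη : c η = η := by rw [hη, map_pow, hfix]
  have hsum : ∑ i ∈ Finset.range (2 * k + 1), ζ ^ i = 0 := by
    have h := mul_geom_sum ζ (2 * k + 1)
    rw [hζ, sub_self] at h
    exact (mul_eq_zero.mp h).resolve_left (sub_ne_zero.mpr hne)
  rw [Finset.sum_range_succ'] at hsum
  obtain ⟨z, hz, hz'⟩ := exists_sq_eq_sum_sq c hcc hj hcj (fun i => η ^ (i + 1))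
    (fun i => by rw [map_pow, hcη]) (2 * k)
  have hzz : z * z = -1 := by
    rw [hz']
    have : ∑ i ∈ Finset.range (2 * k), η ^ (i + 1) * η ^ (i + 1)
        = ∑ i ∈ Finset.range (2 * k), ζ ^ (i + 1) := by
      refine Finset.sum_congr rfl fun i _ => ?_
      rw [← mul_pow, hηη]
    rw [this]
    rw [pow_zero] at hsum
    linear_combination hsum
  -- `z = ± j`, but `c z = z` and `c j = -j`
  have h1 : (z - j) * (z + j) = 0 := by
    have : (z - j) * (z + j) = z * z - j * j := by ring
    rw [this, hzz, hj, sub_self]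
  have hz0 : z = 0 := by
    rcases mul_eq_zero.mp h1 with h | h
    · have hzj : z = j := sub_eq_zero.mp h
      have : z = -z := by
        conv_lhs => rw [← hz, hzj, hcj, ← hzj]
      have h2 : (2 : K) * z = 0 := by linear_combination this
      exact (mul_eq_zero.mp h2).resolve_left two_ne_zero
    · have hzj : z = -j := eq_neg_of_add_eq_zero_left h
      have : z = -z := by
        conv_lhs => rw [← hz, hzj, map_neg, hcj, ← hzj]
      have h2 : (2 : K) * z = 0 := by linear_combination this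
      exact (mul_eq_zero.mp h2).resolve_left two_ne_zero
  rw [hz0, mul_zero] at hzz
  exact one_ne_zero (neg_eq_zero.mp hzz.symm)

/-- Step 5: `c` inverts the roots of unity of odd order. -/
theorem mul_map_eq_one (hcc : ∀ x, c (c x) = x) (hc1 : ∃ z, c z ≠ z) {m : ℕ} (hm : Odd m)
    (ζ : K) (hζ : ζ ^ m = 1) : ζ * c ζ = 1 := by
  apply eq_one_of_fixed c hcc hc1 hm
  · rw [mul_pow, ← map_pow, hζ, map_one, mul_one]
  · rw [map_mul, hcc, mul_comm]

end Involution

/-- An involution `c ≠ 1` in the absolute Galois group of `ℚ` inverts the roots of unity of odd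
order. -/
theorem involution_mul_root (c : AlgebraicClosure ℚ ≃ₐ[ℚ] AlgebraicClosure ℚ) (hc : c * c = 1)
    (hc1 : c ≠ 1) {m : ℕ} (hm : Odd m) (ζ : AlgebraicClosure ℚ) (hζ : ζ ^ m = 1) :
    ζ * c ζ = 1 := by
  have hcc : ∀ x, (c : AlgebraicClosure ℚ →+* AlgebraicClosure ℚ) ((c : AlgebraicClosure ℚ →+*
      AlgebraicClosure ℚ) x) = x := by
    intro x
    have := congrArg (fun f : AlgebraicClosure ℚ ≃ₐ[ℚ] AlgebraicClosure ℚ => f x) hc
    simpa using this
  have hne : ∃ z, (c : AlgebraicClosure ℚ →+* AlgebraicClosure ℚ) z ≠ z := by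
    by_contra hcon
    push Not at hcon
    apply hc1
    ext x
    simpa using hcon x
  exact mul_map_eq_one (c : AlgebraicClosure ℚ →+* AlgebraicClosure ℚ) hcc hne hm ζ hζ

end Fermat.Agent.S58.H99
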