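import Fermat.Agent.S58.H99_Tors
import Fermat.Agent.S58.H99_Gram
import Fermat.Agent.S58.H99_Inv
import Fermat.Agent.S58.H99_FrobRoot
import Fermat.Agent.L.H19_Odd
import Fermat.Prelude.Def_GaloisRep_ComplexConjugation

/-!
# S58, package P2 (helper99): residual absolute irreducibility and oddness

* `det_tors_involution`: every involution `c ≠ 1` of `Gal(Q̄/ℚ)` has determinant `-1` on `W[p]`,
  `p` odd (Frobenius density, item 62, action of Frobenius elements and of involutions on the
  `p`-th roots of unity).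
* `stmt_ResIrr : Stmt_ResIrr` (P2 of `NOTES/plan/S58.md`).
-/

set_option autoImplicit false

open Polynomial IsLocalRing WeierstrassCurve WeierstrassCurve.Affine

namespace Fermat.Agent.S58.H99

open Fermat.Agent.S58

theorem complexConjugation_ne_one' : complexConjugation ≠ 1 := by
  intro h
  obtain ⟨i, hi⟩ := IsAlgClosed.exists_pow_nat_eq (-1 : AlgebraicClosure ℚ) (n := 2)
    (by norm_num)
  have h1 := complexEmbedding_complexConjugation i
  rw [h, AlgEquiv.one_apply] at h1
  set z := complexEmbedding i with hz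
  have hz2 : z ^ 2 = -1 := by rw [hz, ← map_pow, hi, map_neg, map_one]
  -- `z` is real, so `z ^ 2 ≥ 0`
  have hreal : z.im = 0 := by
    have := congrArg Complex.im h1
    rw [Complex.conj_im] at this
    linarith
  have h2 := congrArg Complex.re hz2
  rw [pow_two, Complex.mul_re, hreal] at h2
  simp at h2
  nlinarith [mul_self_nonneg z.re]

/-- Every involution `c ≠ 1` has determinant `-1` on `W[p]`, `p` odd. -/
theorem det_tors_involution (W : WeierstrassCurve ℤ) (hΔ : W.Δ ≠ 0) (p : ℕ) [hpF : Fact p.Prime]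
    (hp2 : p ≠ 2) (c : GQ) (hc : c * c = 1) (hc1 : c ≠ 1) :
    LinearMap.det (torsRho W p c) = -1 := by
  classical
  have hp : p.Prime := hpF.out
  obtain ⟨ζ, hζ, hζ1⟩ := exists_root_ne_one hp
  obtain ⟨L₁, hL₁, h1⟩ := torsW_finiteLevel W hΔ p
  have hζint : IsIntegral ℚ ζ := IsIntegral.of_pow hp.pos (by rw [hζ]; exact isIntegral_one)
  have hL₂ : FiniteDimensional ℚ ↥(IntermediateField.adjoin ℚ {ζ}) :=
    IntermediateField.adjoin.finiteDimensional hζint
  have := hL₁
  have hL : FiniteDimensional ℚ ↥(L₁ ⊔ IntermediateField.adjoin ℚ {ζ}) :=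
    IntermediateField.finiteDimensional_sup L₁ _
  obtain ⟨ℓ, P, φ, j, hℓ, hℓS, hP, hφ, hj⟩ :=
    Fermat.Agent.Lib.FrobDensity.stmt_FD (badSet W p) (L₁ ⊔ IntermediateField.adjoin ℚ {ζ}) hL c
  obtain ⟨hℓp, hgood⟩ := not_mem_badSet hΔ hℓ hℓS
  -- `c` and `φ ^ j` act in the same way on `W[p]`
  have hτ : torsRho W p (c⁻¹ * φ ^ j) = 1 := by
    apply h1
    intro x hx
    rw [AlgEquiv.mul_apply, hj x ((le_sup_left : L₁ ≤ _) hx)]
    exact c.symm_apply_apply x
  have hcφ : torsRho W p c = torsRho W p (φ ^ j) := by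
    have : φ ^ j = c * (c⁻¹ * φ ^ j) := by rw [mul_inv_cancel_left]
    rw [this, map_mul, hτ, mul_one]
  obtain ⟨-, -, hdet⟩ :=
    Fermat.Agent.Lib.EllFinite.stmt_main W p ℓ hℓ (Ne.symm hℓp) hgood P hP φ hφ
  have hdetφ : LinearMap.det (torsRho W p φ) = (ℓ : ZMod p) := hdet
  rw [hcφ, map_pow, map_pow, hdetφ]
  -- the action on `ζ`
  have hζL : ζ ∈ L₁ ⊔ IntermediateField.adjoin ℚ {ζ} :=
    (le_sup_right : IntermediateField.adjoin ℚ {ζ} ≤ _)
      (IntermediateField.mem_adjoin_simple_self ℚ ζ)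
  have e1 : (φ ^ j) ζ = ζ ^ (ℓ ^ j) :=
    frobenius_pow_root P φ hℓ hp (Ne.symm hℓp) hP hφ ζ hζ j
  have e2 : ζ * c ζ = 1 := involution_mul_root c hc hc1 (hp.odd_of_ne_two hp2) ζ hζ
  rw [← hj ζ hζL, e1, ← pow_succ'] at e2
  have hord : orderOf ζ = p := orderOf_eq_prime hζ hζ1
  have hdvd : p ∣ ℓ ^ j + 1 := by
    rw [← hord]
    exact orderOf_dvd_of_pow_eq_one e2
  have h0 : ((ℓ ^ j + 1 : ℕ) : ZMod p) = 0 := (ZMod.natCast_eq_zero_iff _ _).mpr hdvd
  push_cast at h0
  exact eq_neg_of_add_eq_zero_left h0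

/-- `W[p]` is spanned by the image of Galois if it is irreducible and `p` is odd. -/
theorem span_torsRho (W : WeierstrassCurve ℤ) (hΔ : W.Δ ≠ 0) (p : ℕ) [hpF : Fact p.Prime]
    (hp2 : p ≠ 2) (hirr : W.ModRepIsIrreducible p) :
    Submodule.span (ZMod p) (Set.range (torsRho W p)) = ⊤ := by
  have hp : p.Prime := hpF.out
  have h2 : (2 : ZMod p) ≠ 0 := by
    intro h
    have h' : ((2 : ℕ) : ZMod p) = 0 := by exact_mod_cast h
    rw [ZMod.natCast_eq_zero_iff] at h'
    exact hp2 ((Nat.prime_dvd_prime_iff_eq hp Nat.prime_two).mp h')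
  refine Fermat.Agent.L.H19.stmt_ODD (ZMod p) h2 GQ (TorsW W p) (torsRho W p)
    (finrank_torsW W hΔ p) complexConjugation complexConjugation_mul_self
    (det_tors_involution W hΔ p hp2 complexConjugation complexConjugation_mul_self
      complexConjugation_ne_one') ?_
  intro N hN
  exact hirr.2 N (fun σ x hx => hN σ x hx)

/-- The residue field of a local ring with `p` in the maximal ideal has characteristic `p`. -/
theorem charP_residueField {O : Type*} [CommRing O] [IsLocalRing O] {p : ℕ} (hp : p.Prime)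
    (hpO : (p : O) ∈ maximalIdeal O) : CharP (ResidueField O) p := by
  refine (CharP.charP_iff_prime_eq_zero hp).mpr ?_
  have : residue O (p : O) = 0 := (residue_eq_zero_iff _).mpr hpO
  rwa [map_natCast] at this

/-- Traces and determinants of the residual representation in terms of `W[p]`. -/
theorem residual_trace_det {O : Type} [CommRing O] [IsLocalRing O] (W : WeierstrassCurve ℤ)
    (hΔ : W.Δ ≠ 0) (p : ℕ) [hpF : Fact p.Prime] (hpO : (p : O) ∈ maximalIdeal O)
    (ρ : GaloisRepAdic O) (S : Finset ℕ) (hρ : HasFrobOf W ρ S) (g : GQ) :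
    haveI := charP_residueField hpF.out hpO
    LinearMap.trace (ResidueField O) ρ.residual.V (ρ.residual.ρ g) =
        ZMod.castHom (dvd_refl p) (ResidueField O)
          (LinearMap.trace (ZMod p) (TorsW W p) (torsRho W p g)) ∧
      LinearMap.det (ρ.residual.ρ g) =
        ZMod.castHom (dvd_refl p) (ResidueField O) (LinearMap.det (torsRho W p g)) := by
  have := charP_residueField hpF.out hpO
  obtain ⟨t, d, h1, h2, h3, h4⟩ := exists_int_tors W hΔ p ρ S hρ g
  have e1 : LinearMap.trace (ResidueField O) ρ.residual.V (ρ.residual.ρ g) =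
      residue O (LinearMap.trace O ρ.V (ρ.ρ g)) :=
    LinearMap.trace_baseChange (ρ.ρ g) (ResidueField O)
  have e2 : LinearMap.det (ρ.residual.ρ g) = residue O (LinearMap.det (ρ.ρ g)) :=
    LinearMap.det_baseChange (ρ.ρ g)
  have r1 : residue O (LinearMap.trace O ρ.V (ρ.ρ g)) = residue O (t : O) := by
    rw [← sub_eq_zero, ← map_sub]
    exact (residue_eq_zero_iff _).mpr h1
  have r2 : residue O (LinearMap.det (ρ.ρ g)) = residue O (d : O) := by
    rw [← sub_eq_zero, ← map_sub]
    exact (residue_eq_zero_iff _).mpr h2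
  constructor
  · rw [e1, r1, h3, map_intCast, map_intCast]
  · rw [e2, r2, h4, map_intCast, map_intCast]

/-- **P2.** -/
theorem stmt_ResIrr : Stmt_ResIrr := by
  intro p hpF hp2 W hΔ hirr O _ _ _ _ _ _ hpO ρ S hρ
  classical
  have hp : p.Prime := hpF.out
  have := charP_residueField hp hpO
  constructor
  · obtain ⟨g, hg⟩ := exists_gram_ne_zero_of_span (finrank_torsW W hΔ p) (torsRho W p)
      (span_torsRho W hΔ p hp2 hirr)
    apply isAbsolutelyIrreducible_of_gram ρ.residual g
    have hmap : (Matrix.of fun a b =>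
          LinearMap.trace (ResidueField O) ρ.residual.V (ρ.residual.ρ (g a * g b))) =
        (Matrix.of fun a b =>
          LinearMap.trace (ZMod p) (TorsW W p) (torsRho W p (g a * g b))).map
          (ZMod.castHom (dvd_refl p) (ResidueField O)) := by
      ext a b
      simp only [Matrix.of_apply, Matrix.map_apply]
      exact (residual_trace_det W hΔ p hpO ρ S hρ (g a * g b)).1
    rw [hmap, ← RingHom.mapMatrix_apply, ← RingHom.map_det]
    exact fun h0 => hg ((map_eq_zero _).mp h0)
  · intro c hc hc1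
    rw [(residual_trace_det W hΔ p hpO ρ S hρ c).2, det_tors_involution W hΔ p hp2 c hc hc1,
      map_neg, map_one]

end Fermat.Agent.S58.H99
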