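import Fermat.Agent.S58.Defs
import Fermat.Agent.R.H2_PDVRStmt
import Fermat.Agent.R.H99_EigenChar
import Fermat.Agent.R.H91_Lucas

/-!
# S58: plumbing for the wiring (helper99)

* `trace_det_of_charpoly_two`: trace and determinant from the characteristic polynomial, rank 2.
* `exists_padic_embedding`: the coefficient ring of an eigen-character embeds into a complete
  discrete valuation ring of residue characteristic `lam`, for every prime `lam`.
* `eq_zero_of_forall_prime_mem`: an algebraic integer which lies, for infinitely many primes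
  `lam`, in a proper ideal containing `lam` of a subring of `ℂ`, is zero.
-/

set_option autoImplicit false

open Polynomial IsLocalRing

namespace Fermat.Agent.S58.H99

/-- Trace and determinant from the characteristic polynomial in rank 2. -/
theorem trace_det_of_charpoly_two {A V : Type*} [CommRing A] [AddCommGroup V] [Module A V]
    [Module.Free A V] [Module.Finite A V] (hV : Module.finrank A V = 2) (f : Module.End A V)
    {t d : A} (h : f.charpoly = X ^ 2 - C t * X + C d) :
    LinearMap.trace A V f = t ∧ LinearMap.det f = d := by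
  rw [Fermat.Agent.R.H91.charpoly_eq_of_finrank_two hV f] at h
  have h0 := congrArg (fun q : A[X] => q.coeff 0) h
  have h1 := congrArg (fun q : A[X] => q.coeff 1) h
  simp only [coeff_add, coeff_sub, coeff_X_pow, coeff_C_mul, coeff_X_zero, coeff_X_one,
    coeff_C_zero, coeff_C_succ, mul_zero, mul_one, sub_zero, add_zero] at h0 h1
  norm_num at h0 h1
  exact ⟨h1, h0⟩

section Embedding

variable {M : ℕ} [NeZero M] {S : Set ℕ}

/-- The range of a character of the Hecke algebra is finite over `ℤ`. -/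
theorem finite_range (chig : CuspForm.heckeAlgebra M 2 S →+* ℂ) : Module.Finite ℤ chig.range := by
  have hfinT : Module.Finite ℤ (CuspForm.heckeAlgebra M 2 S) := Fermat.Agent.S22.result M 2 _
  exact Module.Finite.of_surjective (chig.rangeRestrict.toIntAlgHom.toLinearMap)
    chig.rangeRestrict_surjective

/-- The values of a character of the Hecke algebra are algebraic integers. -/
theorem isIntegral_apply (chig : CuspForm.heckeAlgebra M 2 S →+* ℂ)
    (T : CuspForm.heckeAlgebra M 2 S) : IsIntegral ℤ (chig T) := by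
  have : Module.Finite ℤ (CuspForm.heckeAlgebra M 2 S) := Fermat.Agent.S22.result M 2 S
  have hT : IsIntegral ℤ T := Algebra.IsIntegral.isIntegral T
  exact hT.map chig.toIntAlgHom

/-- A prime number is not a unit in a subring of `ℂ` which is finite over `ℤ`. -/
theorem not_isUnit_natCast_of_finite (R : Subring ℂ) [Module.Finite ℤ R] {lam : ℕ}
    (hlam : lam.Prime) : ¬ IsUnit (lam : R) := by
  intro hu
  obtain ⟨u, hu⟩ := hu
  have hint : IsIntegral ℤ ((u⁻¹ : Rˣ) : R) := Algebra.IsIntegral.isIntegral _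
  have hintC : IsIntegral ℤ (((u⁻¹ : Rˣ) : R) : ℂ) := hint.map R.subtype.toIntAlgHom
  have h1 : (lam : ℂ) * (((u⁻¹ : Rˣ) : R) : ℂ) = 1 := by
    have h2 : ((u : R) * ((u⁻¹ : Rˣ) : R)) = 1 := u.mul_inv
    rw [hu] at h2
    have := congrArg (fun z : R => (z : ℂ)) h2
    simpa using this
  have hlam0 : (lam : ℂ) ≠ 0 := by exact_mod_cast hlam.ne_zero
  have hval : (((u⁻¹ : Rˣ) : R) : ℂ) = (lam : ℂ)⁻¹ := by
    field_simp
    linear_combination h1
  rw [hval] at hintC
  have hmap : (algebraMap ℚ ℂ) ((lam : ℚ)⁻¹) = (lam : ℂ)⁻¹ := by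
    rw [eq_ratCast (algebraMap ℚ ℂ)]; push_cast; rfl
  rw [← hmap] at hintC
  have hintQ : IsIntegral ℤ ((lam : ℚ)⁻¹) :=
    (isIntegral_algebraMap_iff (algebraMap ℚ ℂ).injective).mp hintC
  obtain ⟨m, hm⟩ := IsIntegrallyClosed.isIntegral_iff.mp hintQ
  rw [eq_intCast] at hm
  have hpQ : (lam : ℚ) ≠ 0 := by exact_mod_cast hlam.ne_zero
  have hmul : ((lam * m : ℤ) : ℚ) = ((1 : ℤ) : ℚ) := by
    push_cast; rw [hm]; field_simp
  have hdvd : (lam : ℤ) ∣ 1 := ⟨m, (Int.cast_injective hmul).symm⟩
  have hple : (lam : ℤ) ≤ 1 := Int.le_of_dvd one_pos hdvd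
  have := hlam.two_le
  omega

/-- **Embedding of the coefficient ring.** -/
theorem exists_padic_embedding (chig : CuspForm.heckeAlgebra M 2 S →+* ℂ) {lam : ℕ}
    (hlam : lam.Prime) :
    ∃ (P : Ideal chig.range) (O' : Type) (_ : CommRing O') (_ : IsDomain O')
      (_ : IsDiscreteValuationRing O') (_ : IsAdicComplete (maximalIdeal O') O')
      (_ : Finite (ResidueField O')) (_ : CharZero O') (iota : chig.range →+* O'),
      P.IsMaximal ∧ (lam : chig.range) ∈ P ∧ Function.Injective iota ∧
        (maximalIdeal O').comap iota = P ∧ (lam : O') ∈ maximalIdeal O' := by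
  have hfin : Module.Finite ℤ chig.range := finite_range chig
  have hCZ : CharZero chig.range := ⟨fun a b hab => by
    have := congrArg (fun z : chig.range => (z : ℂ)) hab
    simpa using this⟩
  have hne : Ideal.span {(lam : chig.range)} ≠ ⊤ := fun htop =>
    not_isUnit_natCast_of_finite chig.range hlam (Ideal.span_singleton_eq_top.mp htop)
  obtain ⟨P, hPmax, hPle⟩ := Ideal.exists_le_maximal _ hne
  have hlamP : (lam : chig.range) ∈ P := hPle (Ideal.subset_span rfl)
  obtain ⟨O', i1, i2, i3, i4, i5, i6, ι, hιinj, hιcomap⟩ :=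
    Fermat.Agent.R.H2.stmt_PDVR chig.range P
  refine ⟨P, O', i1, i2, i3, i4, i5, i6, ι, hPmax, hlamP, hιinj, hιcomap, ?_⟩
  have : (lam : chig.range) ∈ (maximalIdeal O').comap ι := hιcomap ▸ hlamP
  rw [Ideal.mem_comap, map_natCast] at this
  exact this

/-- An integral value of a character, as an element of the range. -/
theorem rangeRestrict_eq_intCast (chig : CuspForm.heckeAlgebra M 2 S →+* ℂ)
    (T : CuspForm.heckeAlgebra M 2 S) (a : ℤ) (h : chig T = (a : ℂ)) :
    chig.rangeRestrict T = (a : chig.range) := by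
  apply Subtype.ext
  rw [RingHom.coe_rangeRestrict, h]
  simp

end Embedding

section Zero

/-- **ZERO.** -/
theorem eq_zero_of_forall_prime_mem (x : ℂ) (hx : IsIntegral ℤ x) (B : ℕ)
    (h : ∀ lam : ℕ, lam.Prime → B < lam →
      ∃ (R : Subring ℂ) (P : Ideal R) (hxR : x ∈ R), P ≠ ⊤ ∧ (lam : R) ∈ P ∧
        (⟨x, hxR⟩ : R) ∈ P) : x = 0 := by
  by_contra hx0
  -- a polynomial `f` over `ℤ` with `f(x) = 0` and nonzero constant term
  obtain ⟨f, hfx, hf0⟩ : ∃ f : ℤ[X], Polynomial.aeval x f = 0 ∧ f.coeff 0 ≠ 0 := by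
    obtain ⟨p, hp, hpx⟩ := hx
    have hp0 : p ≠ 0 := hp.ne_zero
    obtain ⟨q, hq, hnd⟩ := Polynomial.exists_eq_pow_rootMultiplicity_mul_and_not_dvd p hp0 0
    rw [map_zero, sub_zero] at hq hnd
    refine ⟨q, ?_, fun h0 => hnd (Polynomial.X_dvd_iff.mpr h0)⟩
    have h1 : Polynomial.aeval x p = 0 := hpx
    rw [hq, map_mul, map_pow, Polynomial.aeval_X] at h1
    exact (mul_eq_zero.mp h1).resolve_left (pow_ne_zero _ hx0)
  set c : ℤ := f.coeff 0 with hc
  have hc0 : c ≠ 0 := hf0
  -- every large prime divides `c`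
  have hdvd : ∀ lam : ℕ, lam.Prime → B < lam → (lam : ℤ) ∣ c := by
    intro lam hlam hB
    obtain ⟨R, P, hxR, hPtop, hlamP, hxP⟩ := h lam hlam hB
    have hR0 : Polynomial.aeval (⟨x, hxR⟩ : R) f = 0 := by
      apply Subtype.val_injective
      have := Polynomial.aeval_algHom_apply R.subtype.toIntAlgHom (⟨x, hxR⟩ : R) f
      simp only [RingHom.toIntAlgHom_apply, Subring.subtype_apply] at this
      rw [← this, hfx]
      rfl
    have hsplit : f.divX * X + C c = f := Polynomial.divX_mul_X_add f
    rw [← hsplit] at hR0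
    simp only [map_add, map_mul, Polynomial.aeval_X, eq_intCast, map_intCast] at hR0
    have hcP : (c : R) ∈ P := by
      have e : (c : R) = -(Polynomial.aeval (⟨x, hxR⟩ : R) f.divX * (⟨x, hxR⟩ : R)) :=
        eq_neg_of_add_eq_zero_right hR0
      rw [e]
      exact P.neg_mem (P.mul_mem_left _ hxP)
    by_contra hndvd
    have hcop : IsCoprime (lam : ℤ) c :=
      (Nat.prime_iff_prime_int.mp hlam).coprime_iff_not_dvd.mpr hndvd
    obtain ⟨u, v, huv⟩ := hcop
    have h1 : ((u * lam + v * c : ℤ) : R) = 1 := by rw [huv, Int.cast_one]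
    have h2 : ((u * lam + v * c : ℤ) : R) ∈ P := by
      push_cast
      exact P.add_mem (P.mul_mem_left _ hlamP) (P.mul_mem_left _ hcP)
    rw [h1] at h2
    exact hPtop ((Ideal.eq_top_iff_one P).mpr h2)
  obtain ⟨lam, hlam1, hlam2⟩ := Nat.exists_infinite_primes (max B c.natAbs + 1)
  have hB : B < lam := by
    have := le_max_left B c.natAbs
    omega
  have h3 := hdvd lam hlam2 hB
  have h4 : lam ∣ c.natAbs := Int.natCast_dvd.mp h3
  have h5 : lam ≤ c.natAbs := Nat.le_of_dvd (Nat.pos_of_ne_zero (Int.natAbs_ne_zero.mpr hc0)) h4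
  have := le_max_right B c.natAbs
  omega

end Zero

end Fermat.Agent.S58.H99
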