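import Fermat.Agent.S58.H99_Rig
import Fermat.Agent.Lib.EllFinite.Main
import Fermat.Agent.Lib.FrobExists

/-!
# S58: the mod `p` representation `W[p]` as a representation with integral Frobenius
characteristic polynomials (helper99)

From item 62 (`Fermat.Agent.Lib.EllFinite.stmt_main`): `W[p](Q̄)` has rank `2` over `ZMod p`,
factors through a finite extension of `ℚ`, and a Frobenius element at a good prime `ℓ ≠ p` has
characteristic polynomial `X² - a_ℓ X + ℓ`.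

Consequence `stmt_ResFrob` (P3 of `NOTES/plan/S58.md`).
-/

set_option autoImplicit false

open Polynomial IsLocalRing WeierstrassCurve WeierstrassCurve.Affine

namespace Fermat.Agent.S58.H99

open Fermat.Agent.S58

/-- `W[p](Q̄)`. -/
abbrev TorsW (W : WeierstrassCurve ℤ) (p : ℕ) : Type :=
  Submodule.torsionBy ℤ ((W.map (Int.castRingHom ℚ)).toAffine⁄(AlgebraicClosure ℚ)).Point p

/-- The Galois action on `W[p](Q̄)`. -/
noncomputable abbrev torsRho (W : WeierstrassCurve ℤ) (p : ℕ) :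
    GQ →* Module.End (ZMod p) (TorsW W p) :=
  Point.galoisRepModuleEnd (K := AlgebraicClosure ℚ) ℚ (W.map (Int.castRingHom ℚ)).toAffine p

/-- There are a good prime `ℓ ≠ p`, a place over it and a Frobenius element. -/
theorem exists_good_frobenius (W : WeierstrassCurve ℤ) (hΔ : W.Δ ≠ 0) (p : ℕ) :
    ∃ (ℓ : ℕ) (A : ValuationSubring (AlgebraicClosure ℚ)) (σ : GQ),
      ℓ.Prime ∧ p ≠ ℓ ∧ W.IsGoodPrimeFor ℓ ∧ A.LiesOverPrime ℓ ∧ A.IsFrobeniusAt σ ℓ := by
  obtain ⟨ℓ, hℓ, hℓp⟩ := Nat.exists_infinite_primes (max p W.Δ.natAbs + 1)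
  obtain ⟨A, σ, hA, hσ⟩ := Fermat.Agent.Lib.FrobExists.exists_place_and_frobenius ℓ hℓp
  refine ⟨ℓ, A, σ, hℓp, ?_, ?_, hA, hσ⟩
  · have := le_max_left p W.Δ.natAbs
    omega
  · intro hdvd
    have h1 : ℓ ∣ W.Δ.natAbs := Int.natCast_dvd.mp hdvd
    have h2 : ℓ ≤ W.Δ.natAbs := Nat.le_of_dvd (Nat.pos_of_ne_zero (Int.natAbs_ne_zero.mpr hΔ)) h1
    have := le_max_right p W.Δ.natAbs
    omega

theorem finrank_torsW (W : WeierstrassCurve ℤ) (hΔ : W.Δ ≠ 0) (p : ℕ) [Fact p.Prime] :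
    Module.finrank (ZMod p) (TorsW W p) = 2 := by
  obtain ⟨ℓ, A, σ, hℓ, hpℓ, hgood, hA, hσ⟩ := exists_good_frobenius W hΔ p
  exact (Fermat.Agent.Lib.EllFinite.stmt_main W p ℓ hℓ hpℓ hgood A hA σ hσ).1

/-- The coordinates of a point. -/
noncomputable def coords {L : Type*} [Field L] [DecidableEq L] {W' : Affine L} :
    W'.Point → Finset L
  | .zero => ∅
  | .some x y _ => {x, y}

theorem smul_eq_of_fix_coords (W : WeierstrassCurve ℤ) (p : ℕ) (σ : GQ) (v : TorsW W p)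
    (h : ∀ x ∈ coords
      (v : ((W.map (Int.castRingHom ℚ)).toAffine⁄(AlgebraicClosure ℚ)).Point), σ x = x) :
    σ • v = v := by
  apply Subtype.ext
  change σ • (v : ((W.map (Int.castRingHom ℚ)).toAffine⁄(AlgebraicClosure ℚ)).Point) = v
  rcases hv : (v : ((W.map (Int.castRingHom ℚ)).toAffine⁄(AlgebraicClosure ℚ)).Point)
    with _ | ⟨x, y, hxy⟩
  · rfl
  · rw [hv] at h
    have hx : σ x = x := h x (by simp [coords])
    have hy : σ y = y := h y (by simp [coords])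
    rw [Point.algEquiv_smul_def]
    simp only [Point.map_some]
    congr 1

theorem torsW_finiteLevel (W : WeierstrassCurve ℤ) (hΔ : W.Δ ≠ 0) (p : ℕ) [Fact p.Prime] :
    GaloisFactorsThroughFiniteLevel (torsRho W p) := by
  classical
  have hfr := finrank_torsW W hΔ p
  have : Module.Finite (ZMod p) (TorsW W p) := Module.finite_of_finrank_eq_succ hfr
  have : Finite (TorsW W p) := Module.finite_of_finite (ZMod p)
  let _ : Fintype (TorsW W p) := Fintype.ofFinite _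
  let S : Finset (AlgebraicClosure ℚ) := Finset.univ.biUnion fun v : TorsW W p =>
    coords (v : ((W.map (Int.castRingHom ℚ)).toAffine⁄(AlgebraicClosure ℚ)).Point)
  have halg : Algebra.IsAlgebraic ℚ (AlgebraicClosure ℚ) := AlgebraicClosure.isAlgebraic ℚ
  refine ⟨IntermediateField.adjoin ℚ (S : Set (AlgebraicClosure ℚ)),
    IntermediateField.finiteDimensional_adjoin
      (fun x _ => (Algebra.IsAlgebraic.isAlgebraic x).isIntegral), fun σ hσ => ?_⟩
  refine LinearMap.ext fun v => ?_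
  rw [Point.galoisRepModuleEnd_apply, Module.End.one_apply]
  refine smul_eq_of_fix_coords W p σ v fun x hx => hσ x ?_
  exact IntermediateField.subset_adjoin ℚ _
    (Finset.mem_coe.mpr (Finset.mem_biUnion.mpr ⟨v, Finset.mem_univ _, hx⟩))

/-- `W[p]` as a residual representation. -/
noncomputable def torsRes (W : WeierstrassCurve ℤ) (hΔ : W.Δ ≠ 0) (p : ℕ) [Fact p.Prime] :
    ResidualGaloisRep (ZMod p) :=
  { V := TorsW W p
    finrank_eq := finrank_torsW W hΔ p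
    ρ := torsRho W p
    factorsThroughFiniteLevel := torsW_finiteLevel W hΔ p }

/-- `W[p]` as an adic representation over the field `ZMod p`. -/
noncomputable def torsAdic (W : WeierstrassCurve ℤ) (hΔ : W.Δ ≠ 0) (p : ℕ) [Fact p.Prime] :
    GaloisRepAdic (ZMod p) :=
  GaloisRepAdic.ofResidualGaloisRep (torsRes W hΔ p)

/-- The set of primes which are bad for `W` or equal to `p`. -/
noncomputable def badSet (W : WeierstrassCurve ℤ) (p : ℕ) : Finset ℕ :=
  insert p W.Δ.natAbs.primeFactors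

theorem not_mem_badSet {W : WeierstrassCurve ℤ} (hΔ : W.Δ ≠ 0) {p ℓ : ℕ} (hℓ : ℓ.Prime)
    (h : ℓ ∉ badSet W p) : ℓ ≠ p ∧ W.IsGoodPrimeFor ℓ := by
  refine ⟨fun e => h (e ▸ Finset.mem_insert_self _ _), fun hdvd => h ?_⟩
  refine Finset.mem_insert_of_mem ?_
  rw [Nat.mem_primeFactors]
  exact ⟨hℓ, Int.natCast_dvd.mp hdvd, Int.natAbs_ne_zero.mpr hΔ⟩

theorem torsAdic_charpoly (W : WeierstrassCurve ℤ) (hΔ : W.Δ ≠ 0) (p : ℕ) [Fact p.Prime]
    (ℓ : ℕ) (hℓ : ℓ.Prime) (hℓp : ℓ ≠ p) (hgood : W.IsGoodPrimeFor ℓ)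
    (P : ValuationSubring (AlgebraicClosure ℚ)) (hP : P.LiesOverPrime ℓ) (σ : GQ)
    (hσ : P.IsFrobeniusAt σ ℓ) :
    LinearMap.charpoly ((torsAdic W hΔ p).ρ σ) =
      X ^ 2 - C (((W.apOfModel ℓ : ℤ) : ZMod p)) * X + C ((ℓ : ZMod p)) := by
  obtain ⟨-, htr, hdet⟩ :=
    Fermat.Agent.Lib.EllFinite.stmt_main W p ℓ hℓ (Ne.symm hℓp) hgood P hP σ hσ
  rw [Fermat.Agent.R.H91.charpoly_eq_of_finrank_two (torsAdic W hΔ p).finrank_eq]
  have e1 : LinearMap.trace (ZMod p) (torsAdic W hΔ p).V ((torsAdic W hΔ p).ρ σ)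
      = ((W.apOfModel ℓ : ℤ) : ZMod p) := htr
  have e2 : LinearMap.det ((torsAdic W hΔ p).ρ σ) = (ℓ : ZMod p) := hdet
  rw [e1, e2]

theorem torsAdic_hasIntFrob (W : WeierstrassCurve ℤ) (hΔ : W.Δ ≠ 0) (p : ℕ) [Fact p.Prime] :
    HasIntFrob (torsAdic W hΔ p) (fun ℓ => W.apOfModel ℓ) (badSet W p) := by
  intro ℓ hℓ hℓS P hP σ hσ
  obtain ⟨hℓp, hgood⟩ := not_mem_badSet hΔ hℓ hℓS
  exact torsAdic_charpoly W hΔ p ℓ hℓ hℓp hgood P hP σ hσ

/-- Comparison of an adic representation with the Frobenius characteristic polynomials of `W`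
with `W[p]`: trace and determinant of every element are congruent to integers which give the
trace and determinant on `W[p]`. -/
theorem exists_int_tors {O : Type} [CommRing O] [IsLocalRing O] (W : WeierstrassCurve ℤ)
    (hΔ : W.Δ ≠ 0) (p : ℕ) [Fact p.Prime] (ρ : GaloisRepAdic O) (S : Finset ℕ)
    (hρ : HasFrobOf W ρ S) (g : GQ) :
    ∃ t d : ℤ,
      LinearMap.trace O ρ.V (ρ.ρ g) - (t : O) ∈ maximalIdeal O ∧
      LinearMap.det (ρ.ρ g) - (d : O) ∈ maximalIdeal O ∧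
      LinearMap.trace (ZMod p) (TorsW W p) (torsRho W p g) = (t : ZMod p) ∧
      LinearMap.det (torsRho W p g) = (d : ZMod p) := by
  obtain ⟨t, d, h1, h2, h3, h4⟩ := exists_int_approx ρ (torsAdic W hΔ p)
    (fun ℓ => W.apOfModel ℓ) S (badSet W p) hρ (torsAdic_hasIntFrob W hΔ p) 1 1 g
  rw [pow_one] at h1 h2
  rw [pow_one, IsLocalRing.maximalIdeal_eq_bot, Ideal.mem_bot, sub_eq_zero] at h3 h4
  exact ⟨t, d, h1, h2, h3, h4⟩

/-- Integers congruent modulo `p` are congruent modulo the maximal ideal of a local ring of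
residue characteristic `p`. -/
theorem intCast_sub_mem_of_zmod_eq {O : Type*} [CommRing O] [IsLocalRing O] {p : ℕ}
    (hpO : (p : O) ∈ maximalIdeal O) {s t : ℤ} (h : (s : ZMod p) = (t : ZMod p)) :
    (s : O) - (t : O) ∈ maximalIdeal O := by
  have hdvd : (p : ℤ) ∣ s - t := by
    rw [← ZMod.intCast_zmod_eq_zero_iff_dvd]
    push_cast
    rw [h, sub_self]
  obtain ⟨w, hw⟩ := hdvd
  have : (s : O) - (t : O) = (p : O) * (w : O) := by
    have := congrArg (Int.cast : ℤ → O) hw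
    push_cast at this
    exact this
  rw [this]
  exact Ideal.mul_mem_right _ _ hpO

/-- **P3.** -/
theorem stmt_ResFrob : Stmt_ResFrob := by
  intro lam _ W hΔ O _ _ _ _ _ _ hlamO ρ S hρ ℓ hℓ hℓlam hgood P hP σ hσ
  obtain ⟨t, d, h1, -, h3, -⟩ := exists_int_tors W hΔ lam ρ S hρ σ
  obtain ⟨-, htr, -⟩ :=
    Fermat.Agent.Lib.EllFinite.stmt_main W lam ℓ hℓ (Ne.symm hℓlam) hgood P hP σ hσ
  have e : (t : ZMod lam) = ((W.apOfModel ℓ : ℤ) : ZMod lam) := by
    rw [← h3]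
    exact htr
  have h4 := intCast_sub_mem_of_zmod_eq hlamO e
  have := Ideal.add_mem _ h1 h4
  have e2 : LinearMap.trace O ρ.V (ρ.ρ σ) - (t : O) + ((t : O) - ((W.apOfModel ℓ : ℤ) : O))
      = LinearMap.trace O ρ.V (ρ.ρ σ) - ((W.apOfModel ℓ : ℤ) : O) := by ring
  rwa [e2] at this

end Fermat.Agent.S58.H99
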