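import Fermat.Agent.S58.Wiring
import Fermat.Agent.Tate.H46_T1
import Fermat.Agent.Tate.H7_Charpoly
import Fermat.Agent.Tate.H5_T4

/-!
# S58: the Tate module input is available (helper99)

`stmt_TateUnip : Stmt_TateUnip` from the parts T1 (helper46), T3c (helper7), T4 (helper5) of
`Fermat/Agent/Tate/`, hence

`result_of_S35_S36 : Stmt_S35 → Stmt_S36 → Stmt_S58`.
-/

set_option autoImplicit false

open IsLocalRing

namespace Fermat.Agent.S58

theorem natCast_mem_maximalIdeal_padicInt (p : ℕ) [hp : Fact p.Prime] :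
    (p : ℤ_[p]) ∈ maximalIdeal ℤ_[p] := by
  rw [mem_maximalIdeal, mem_nonunits_iff]
  exact PadicInt.p_nonunit

/-- The Tate module input of the S58 wiring. -/
theorem stmt_TateUnip : Stmt_TateUnip := by
  intro p _ W hΔ hss
  obtain ⟨D⟩ := Fermat.Agent.Tate.H46.stmt_T1 W hΔ p
  exact ⟨ℤ_[p], inferInstance, inferInstance, inferInstance, inferInstance, inferInstance,
    inferInstance, natCast_mem_maximalIdeal_padicInt p, D.ρ,
    Fermat.Agent.Tate.H5.stmt_T4 W hΔ hss p D, Fermat.Agent.Tate.H7.stmt_T3c W hΔ p D⟩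

/-- **S58 from S35 and S36.** -/
theorem result_of_S35_S36 (h35 : Stmt_S35) (h36 : Stmt_S36) : Stmt_S58 :=
  wiring h35 h36 stmt_TateUnip

end Fermat.Agent.S58
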