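import Fermat.Agent.S35
import Fermat.Agent.S36.H81_Chain
import Fermat.Agent.S58.H99_TateBridge

/-!
# S58 (helper81): the chain from the Kummer core of S36 to the frozen statement

`s58_of_nuCoreTame : S36.NU.H81.Stmt_NUCoreTame → S58.Stmt_S58`, through the landed
`Fermat.Agent.S35.result` and helper99's `S58.result_of_S35_S36`.
-/

set_option autoImplicit false

namespace Fermat.Agent.S58.H81

/-- The frozen statement S35, in the form used by the wiring of S58. -/
theorem stmt_S35 : Fermat.Agent.S58.Stmt_S35 :=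
  fun hg lam _ S O' _ _ _ _ _ _ hlamO' chig hchig iota hlamS hMS =>
    Fermat.Agent.S35.result hg lam S O' hlamO' chig hchig iota hlamS hMS

/-- S36 in the form used by the wiring of S58, from the Kummer core. -/
theorem stmt_S36_of_nuCoreTame (h : Fermat.Agent.S36.NU.H81.Stmt_NUCoreTame) :
    Fermat.Agent.S58.Stmt_S36 :=
  fun hg lam _ S O' _ _ _ _ _ _ hlamO' hlam2 chig hchig iota hlamS hMS hres =>
    Fermat.Agent.S36.H81.s36_of_nuCoreTame h hg lam S O' hlamO' hlam2 chig hchig iota hlamS hMS
      hres

/-- **S58 from the Kummer core of S36.** -/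
theorem s58_of_nuCoreTame (h : Fermat.Agent.S36.NU.H81.Stmt_NUCoreTame) :
    Fermat.Agent.S58.Stmt_S58 :=
  Fermat.Agent.S58.result_of_S35_S36 stmt_S35 (stmt_S36_of_nuCoreTame h)

end Fermat.Agent.S58.H81
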