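import Mathlib
import Fermat.Prelude.Def_FLTPrelim_Modularity

/-!
# S58: the trivial bound `|a_q| ≤ q` (helper99)

A Weierstrass curve over `ZMod q` has at most `2 q + 1` points (at most two values of `y` for
every `x`, and the point at infinity) and at least one, so `a_q = q + 1 - #E(F_q)` satisfies
`-q ≤ a_q ≤ q`.
-/

set_option autoImplicit false
set_option linter.unusedSectionVars false

open WeierstrassCurve

namespace Fermat.Agent.S58.H99

section Count

variable {F : Type} [Field F] [Fintype F] [DecidableEq F] (W : WeierstrassCurve F)

open Classical in
/-- A chosen solution `y` of the Weierstrass equation at `x` (if there is one). -/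
noncomputable def chosenY (x : F) : F :=
  if h : ∃ y, W.toAffine.Equation x y then h.choose else 0

theorem chosenY_spec {x y : F} (h : W.toAffine.Equation x y) :
    W.toAffine.Equation x (chosenY W x) := by
  have hex : ∃ y, W.toAffine.Equation x y := ⟨y, h⟩
  rw [chosenY, dif_pos hex]
  exact hex.choose_spec

/-- Two solutions at the same `x`, both different from a third one, are equal. -/
theorem eq_of_equation {x y y' y₀ : F} (h : W.toAffine.Equation x y)
    (h' : W.toAffine.Equation x y') (h₀ : W.toAffine.Equation x y₀) (hy : y ≠ y₀)
    (hy' : y' ≠ y₀) : y = y' := by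
  rw [WeierstrassCurve.Affine.equation_iff] at h h' h₀
  have e1 : (y - y₀) * (y + y₀ + W.a₁ * x + W.a₃) = 0 := by linear_combination h - h₀
  have e2 : (y' - y₀) * (y' + y₀ + W.a₁ * x + W.a₃) = 0 := by linear_combination h' - h₀
  have f1 := (mul_eq_zero.mp e1).resolve_left (sub_ne_zero.mpr hy)
  have f2 := (mul_eq_zero.mp e2).resolve_left (sub_ne_zero.mpr hy')
  linear_combination f1 - f2

/-- The code of a point. -/
noncomputable def pointCode : W.toAffine.Point → Option (F × Bool)
  | .zero => none
  | .some x y _ => some (x, decide (y = chosenY W x))

theorem pointCode_injective : Function.Injective (pointCode W) := by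
  rintro (_ | ⟨x, y, h⟩) (_ | ⟨x', y', h'⟩) hc
  · rfl
  · simp [pointCode] at hc
  · simp [pointCode] at hc
  · simp only [pointCode, Option.some.injEq, Prod.mk.injEq] at hc
    obtain ⟨rfl, hb⟩ := hc
    have hy : y = y' := by
      by_cases h1 : y = chosenY W x
      · have h2 : y' = chosenY W x := by
          have : decide (y' = chosenY W x) = true := by rw [← hb]; simpa using h1
          simpa using this
        rw [h1, h2]
      · have h2 : y' ≠ chosenY W x := by
          intro h2
          have : decide (y = chosenY W x) = true := by rw [hb]; simpa using h2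
          exact h1 (by simpa using this)
        exact eq_of_equation W h.1 h'.1 (chosenY_spec W h.1) h1 h2
    subst hy
    rfl

theorem card_point_le : Nat.card W.toAffine.Point ≤ 2 * Fintype.card F + 1 := by
  have h := Nat.card_le_card_of_injective (pointCode W) (pointCode_injective W)
  have e : Nat.card (Option (F × Bool)) = 2 * Fintype.card F + 1 := by
    rw [Nat.card_eq_fintype_card, Fintype.card_option, Fintype.card_prod, Fintype.card_bool]
    ring
  rwa [e] at h

theorem card_point_pos : 0 < Nat.card W.toAffine.Point := by
  have : Finite W.toAffine.Point := inferInstance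
  exact Nat.card_pos

end Count

/-- The trivial bound for `a_q`. -/
theorem apOfModel_bounds (W : WeierstrassCurve ℤ) (q : ℕ) [Fact q.Prime] :
    -(q : ℤ) ≤ W.apOfModel q ∧ W.apOfModel q ≤ q := by
  classical
  have h1 := card_point_le (W.reductionMod q)
  have h2 := card_point_pos (W.reductionMod q)
  rw [ZMod.card] at h1
  unfold WeierstrassCurve.apOfModel WeierstrassCurve.traceOfFrobenius WeierstrassCurve.card
  rw [Nat.card_zmod]
  constructor <;> omega

end Fermat.Agent.S58.H99
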