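import Fermat.Agent.S58.Defs
import Fermat.Agent.R.Transfer
import Fermat.Agent.Lib.FrobDensity.Main

/-!
# S58, rigidity tools (helper99)

Two adically continuous representations over (possibly different) local rings whose Frobenius
elements outside a finite set have characteristic polynomial `X² - a_ℓ X + ℓ` with the SAME
integers `a_ℓ` have, at every element `g` of the Galois group and at every pair of levels,
trace and determinant congruent to the same integers (Frobenius density + Lucas sequences).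

Consequence `P1` (`stmt_AdicUnip_of_tate`): unipotency on inertia transfers from the Tate module
to every representation with the same Frobenius characteristic polynomials.
-/

set_option autoImplicit false

open Polynomial IsLocalRing

namespace Fermat.Agent.S58.H99

open Fermat.Agent.S58

/-- `ρ` has integral Frobenius characteristic polynomials `X² - a_ℓ X + ℓ` outside `S`. -/
def HasIntFrob {A : Type} [CommRing A] [IsLocalRing A] (ρ : GaloisRepAdic A) (a : ℕ → ℤ)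
    (S : Finset ℕ) : Prop :=
  ∀ ℓ : ℕ, ℓ.Prime → ℓ ∉ S →
    ∀ P : ValuationSubring (AlgebraicClosure ℚ), P.LiesOverPrime ℓ →
      ∀ σ : GQ, P.IsFrobeniusAt σ ℓ →
        LinearMap.charpoly (ρ.ρ σ) = X ^ 2 - C (((a ℓ : ℤ) : A)) * X + C ((ℓ : A))

theorem HasIntFrob.mono {A : Type} [CommRing A] [IsLocalRing A] {ρ : GaloisRepAdic A}
    {a : ℕ → ℤ} {S T : Finset ℕ} (h : HasIntFrob ρ a S) (hST : S ⊆ T) : HasIntFrob ρ a T :=
  fun ℓ hℓ hℓT P hP σ hσ => h ℓ hℓ (fun hS => hℓT (hST hS)) P hP σ hσ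

theorem hasIntFrob_of_hasFrobOf {W : WeierstrassCurve ℤ} {A : Type} [CommRing A] [IsLocalRing A]
    {ρ : GaloisRepAdic A} {S : Finset ℕ} (h : HasFrobOf W ρ S) :
    HasIntFrob ρ (fun ℓ => W.apOfModel ℓ) S := h

/-- `ρ` has Frobenius characteristic polynomials `X² - φ(a_ℓ) X + ℓ` outside `S`, the `a_ℓ` in a
ring `B` mapping to the coefficient ring by `φ`. -/
def HasFrobVia {B : Type*} [CommRing B] {A : Type} [CommRing A] [IsLocalRing A] (φ : B →+* A)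
    (ρ : GaloisRepAdic A) (a : ℕ → B) (S : Finset ℕ) : Prop :=
  ∀ ℓ : ℕ, ℓ.Prime → ℓ ∉ S →
    ∀ P : ValuationSubring (AlgebraicClosure ℚ), P.LiesOverPrime ℓ →
      ∀ σ : GQ, P.IsFrobeniusAt σ ℓ →
        LinearMap.charpoly (ρ.ρ σ) = X ^ 2 - C (φ (a ℓ)) * X + C ((ℓ : A))

theorem hasFrobVia_of_hasIntFrob {A : Type} [CommRing A] [IsLocalRing A] {ρ : GaloisRepAdic A}
    {a : ℕ → ℤ} {S : Finset ℕ} (h : HasIntFrob ρ a S) :
    HasFrobVia (Int.castRingHom A) ρ a S := by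
  intro ℓ hℓ hℓS P hP σ hσ
  rw [h ℓ hℓ hℓS P hP σ hσ, eq_intCast]

/-- **Joint approximation** over a common ring of Frobenius traces. -/
theorem exists_approx {B : Type*} [CommRing B] {A₁ A₂ : Type} [CommRing A₁] [IsLocalRing A₁]
    [CommRing A₂] [IsLocalRing A₂] (φ₁ : B →+* A₁) (φ₂ : B →+* A₂)
    (ρ₁ : GaloisRepAdic A₁) (ρ₂ : GaloisRepAdic A₂) (a : ℕ → B)
    (S₁ S₂ : Finset ℕ) (h₁ : HasFrobVia φ₁ ρ₁ a S₁) (h₂ : HasFrobVia φ₂ ρ₂ a S₂) (n₁ n₂ : ℕ)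
    (g : GQ) :
    ∃ t d : B,
      LinearMap.trace A₁ ρ₁.V (ρ₁.ρ g) - φ₁ t ∈ maximalIdeal A₁ ^ n₁ ∧
      LinearMap.det (ρ₁.ρ g) - φ₁ d ∈ maximalIdeal A₁ ^ n₁ ∧
      LinearMap.trace A₂ ρ₂.V (ρ₂.ρ g) - φ₂ t ∈ maximalIdeal A₂ ^ n₂ ∧
      LinearMap.det (ρ₂.ρ g) - φ₂ d ∈ maximalIdeal A₂ ^ n₂ := by
  classical
  obtain ⟨L₁, hL₁, hc₁⟩ := Fermat.Agent.R.exists_field_congr ρ₁ n₁
  obtain ⟨L₂, hL₂, hc₂⟩ := Fermat.Agent.R.exists_field_congr ρ₂ n₂
  have := hL₁; have := hL₂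
  have hL : FiniteDimensional ℚ ↥(L₁ ⊔ L₂) := IntermediateField.finiteDimensional_sup L₁ L₂
  obtain ⟨ℓ, P, φ, j, hℓ, hℓS, hP, hφ, hj⟩ :=
    Fermat.Agent.Lib.FrobDensity.stmt_FD (S₁ ∪ S₂) (L₁ ⊔ L₂) hL g
  have hℓ₁ : ℓ ∉ S₁ := fun h => hℓS (Finset.mem_union_left _ h)
  have hℓ₂ : ℓ ∉ S₂ := fun h => hℓS (Finset.mem_union_right _ h)
  have hj₁ : ∀ x ∈ L₁, (φ ^ j) x = g x := fun x hx => hj x ((le_sup_left : L₁ ≤ L₁ ⊔ L₂) hx)
  have hj₂ : ∀ x ∈ L₂, (φ ^ j) x = g x := fun x hx => hj x ((le_sup_right : L₂ ≤ L₁ ⊔ L₂) hx)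
  have e₁ := Fermat.Agent.R.charpoly_congr_of_frob ρ₁ n₁ hc₁ g φ j hj₁ (h₁ ℓ hℓ hℓ₁ P hP φ hφ)
  have e₂ := Fermat.Agent.R.charpoly_congr_of_frob ρ₂ n₂ hc₂ g φ j hj₂ (h₂ ℓ hℓ hℓ₂ P hP φ hφ)
  refine ⟨Fermat.Agent.R.H91.lucasV (a ℓ) (ℓ : B) j, (ℓ : B) ^ j, ?_, ?_, ?_, ?_⟩
  · rw [Fermat.Agent.R.H91.map_lucasV, map_natCast]
    exact e₁.1
  · rw [map_pow, map_natCast]
    exact e₁.2
  · rw [Fermat.Agent.R.H91.map_lucasV, map_natCast]
    exact e₂.1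
  · rw [map_pow, map_natCast]
    exact e₂.2

/-- **Joint integral approximation.** -/
theorem exists_int_approx {A₁ A₂ : Type} [CommRing A₁] [IsLocalRing A₁] [CommRing A₂]
    [IsLocalRing A₂] (ρ₁ : GaloisRepAdic A₁) (ρ₂ : GaloisRepAdic A₂) (a : ℕ → ℤ)
    (S₁ S₂ : Finset ℕ) (h₁ : HasIntFrob ρ₁ a S₁) (h₂ : HasIntFrob ρ₂ a S₂) (n₁ n₂ : ℕ) (g : GQ) :
    ∃ t d : ℤ,
      LinearMap.trace A₁ ρ₁.V (ρ₁.ρ g) - (t : A₁) ∈ maximalIdeal A₁ ^ n₁ ∧
      LinearMap.det (ρ₁.ρ g) - (d : A₁) ∈ maximalIdeal A₁ ^ n₁ ∧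
      LinearMap.trace A₂ ρ₂.V (ρ₂.ρ g) - (t : A₂) ∈ maximalIdeal A₂ ^ n₂ ∧
      LinearMap.det (ρ₂.ρ g) - (d : A₂) ∈ maximalIdeal A₂ ^ n₂ := by
  obtain ⟨t, d, h⟩ := exists_approx (Int.castRingHom A₁) (Int.castRingHom A₂) ρ₁ ρ₂ a S₁ S₂
    (hasFrobVia_of_hasIntFrob h₁) (hasFrobVia_of_hasIntFrob h₂) n₁ n₂ g
  simp only [eq_intCast] at h
  exact ⟨t, d, h⟩

section IntegersInDVR

variable {𝒪 : Type*} [CommRing 𝒪] [IsDomain 𝒪] [IsLocalRing 𝒪] [CharZero 𝒪]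

/-- An integer which lies in the maximal ideal of a local ring of residue characteristic `p` is
divisible by `p`. -/
theorem int_dvd_of_mem_maximalIdeal {B : Type*} [CommRing B] [IsLocalRing B] {p : ℕ}
    (hp : p.Prime) (hpm : (p : B) ∈ maximalIdeal B) (z : ℤ) (hz : (z : B) ∈ maximalIdeal B) :
    (p : ℤ) ∣ z := by
  by_contra hndvd
  have hcop : IsCoprime (p : ℤ) z :=
    (Nat.prime_iff_prime_int.mp hp).coprime_iff_not_dvd.mpr hndvd
  obtain ⟨u, v, huv⟩ := hcop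
  have h1 : ((u * p + v * z : ℤ) : B) = 1 := by rw [huv, Int.cast_one]
  have h2 : ((u * p + v * z : ℤ) : B) ∈ maximalIdeal B := by
    push_cast
    exact Ideal.add_mem _ (Ideal.mul_mem_left _ _ hpm) (Ideal.mul_mem_left _ _ hz)
  rw [h1] at h2
  exact (Ideal.ne_top_iff_one _).mp (maximalIdeal.isMaximal B).ne_top h2

/-- Divisibility of integers by powers of `p` can be tested in a local domain of characteristic
`0` and residue characteristic `p`. -/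
theorem int_pow_dvd_of_dvd {p : ℕ} (hp : p.Prime) (hpm : (p : 𝒪) ∈ maximalIdeal 𝒪) (k : ℕ) :
    ∀ z : ℤ, ((p : 𝒪) ^ k ∣ (z : 𝒪)) → (p : ℤ) ^ k ∣ z := by
  induction k with
  | zero => intro z _; simp
  | succ k ih =>
    intro z hz
    have hp0 : (p : 𝒪) ≠ 0 := by exact_mod_cast hp.ne_zero
    have h1 : (p : 𝒪) ∣ (z : 𝒪) := Dvd.dvd.trans (dvd_pow_self _ (Nat.succ_ne_zero k)) hz
    have h2 : (z : 𝒪) ∈ maximalIdeal 𝒪 := by
      obtain ⟨w, hw⟩ := h1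
      rw [hw]
      exact Ideal.mul_mem_right _ _ hpm
    obtain ⟨z₁, rfl⟩ := int_dvd_of_mem_maximalIdeal hp hpm z h2
    have h3 : (p : 𝒪) ^ k ∣ (z₁ : 𝒪) := by
      have : (p : 𝒪) * (p : 𝒪) ^ k ∣ (p : 𝒪) * (z₁ : 𝒪) := by
        have e : (((p : ℤ) * z₁ : ℤ) : 𝒪) = (p : 𝒪) * (z₁ : 𝒪) := by push_cast; rfl
        rw [← e, ← pow_succ']
        exact hz
      exact (mul_dvd_mul_iff_left hp0).mp this
    rw [pow_succ']
    exact mul_dvd_mul_left _ (ih z₁ h3)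

end IntegersInDVR

/-- In a discrete valuation ring of characteristic `0` and residue characteristic `p`, integers
in a high power of the maximal ideal are divisible by a high power of `p`. -/
theorem exists_level_int {𝒪 : Type*} [CommRing 𝒪] [IsDomain 𝒪] [IsDiscreteValuationRing 𝒪]
    [CharZero 𝒪] {p : ℕ} (hp : p.Prime) (hpm : (p : 𝒪) ∈ maximalIdeal 𝒪) (k : ℕ) :
    ∃ m : ℕ, ∀ z : ℤ, (z : 𝒪) ∈ maximalIdeal 𝒪 ^ m → (p : ℤ) ^ k ∣ z := by
  have hp0 : ((p : 𝒪)) ^ k ≠ 0 := pow_ne_zero _ (by exact_mod_cast hp.ne_zero)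
  obtain ⟨M, hM⟩ := Fermat.Agent.R.exists_pow_le_span hp0
  refine ⟨M, fun z hz => int_pow_dvd_of_dvd hp hpm k z ?_⟩
  exact Ideal.mem_span_singleton.mp (hM hz)

/-- Integers divisible by `p ^ n` lie in the `n`-th power of the maximal ideal. -/
theorem intCast_mem_pow {B : Type*} [CommRing B] [IsLocalRing B] {p : ℕ}
    (hpm : (p : B) ∈ maximalIdeal B) (n : ℕ) (z : ℤ) (hz : (p : ℤ) ^ n ∣ z) :
    (z : B) ∈ maximalIdeal B ^ n := by
  obtain ⟨w, rfl⟩ := hz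
  push_cast
  exact Ideal.mul_mem_right _ _ (Ideal.pow_mem_pow hpm n)

/-- Krull's intersection theorem for a Noetherian local ring, elementwise. -/
theorem eq_zero_of_forall_mem_pow {B : Type*} [CommRing B] [IsLocalRing B] [IsNoetherianRing B]
    (x : B) (hx : ∀ n : ℕ, x ∈ maximalIdeal B ^ n) : x = 0 := by
  have h := Ideal.iInf_pow_eq_bot_of_isLocalRing (maximalIdeal B)
    (maximalIdeal.isMaximal B).ne_top
  have : x ∈ ⨅ n : ℕ, maximalIdeal B ^ n := by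
    rw [Ideal.mem_iInf]; exact hx
  rw [h] at this
  exact this

/-- **P1.** -/
theorem stmt_AdicUnip_of_tate (hT : Stmt_TateUnip) : Stmt_AdicUnip := by
  intro p hpF W hΔ hss O _ _ _ _ _ _ hpO ρ' S hρ' q hq hqp
  classical
  have hp : p.Prime := hpF.out
  obtain ⟨𝒪, i1, i2, i3, i4, i5, i6, hp𝒪, ρ, hunip, hfrob⟩ := hT p W hΔ hss
  -- the finite set of exceptional primes for the Tate module
  have hnat : W.Δ.natAbs ≠ 0 := Int.natAbs_ne_zero.mpr hΔ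
  set S₂ : Finset ℕ := insert p W.Δ.natAbs.primeFactors with hS₂
  have hρ : HasIntFrob ρ (fun ℓ => W.apOfModel ℓ) S₂ := by
    intro ℓ hℓ hℓS P hP σ hσ
    have hℓp : ℓ ≠ p := fun h => hℓS (h ▸ Finset.mem_insert_self _ _)
    have hgood : W.IsGoodPrimeFor ℓ := by
      intro hdvd
      apply hℓS
      refine Finset.mem_insert_of_mem ?_
      rw [Nat.mem_primeFactors]
      exact ⟨hℓ, Int.natCast_dvd.mp hdvd, hnat⟩
    exact hfrob ℓ hℓ hℓp hgood P hP σ hσ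
  intro P hP σ hσ
  -- trace and determinant of the Tate module at `σ`
  have hσ₂ := hunip q hq hqp P hP σ hσ
  have e2 : (X - 1 : 𝒪[X]) ^ 2 = X ^ 2 - C (2 : 𝒪) * X + C (1 : 𝒪) := by
    simp only [map_ofNat, map_one]; ring
  rw [e2, Fermat.Agent.R.H91.charpoly_eq_of_finrank_two ρ.finrank_eq] at hσ₂
  have htr₂ : LinearMap.trace 𝒪 ρ.V (ρ.ρ σ) = 2 := by
    have h1 := congrArg (fun f : 𝒪[X] => f.coeff 1) hσ₂
    simp only [coeff_add, coeff_sub, coeff_X_pow, coeff_C_mul, coeff_X_one, coeff_C_succ,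
      mul_one, add_zero] at h1
    norm_num at h1
    exact h1
  have hdet₂ : LinearMap.det (ρ.ρ σ) = 1 := by
    have h0 := congrArg (fun f : 𝒪[X] => f.coeff 0) hσ₂
    simp only [coeff_add, coeff_sub, coeff_X_pow, coeff_C_mul, coeff_X_zero, coeff_C_zero,
      mul_zero, sub_zero] at h0
    norm_num at h0
    exact h0
  -- congruences at every level
  have key : ∀ n : ℕ, LinearMap.trace O ρ'.V (ρ'.ρ σ) - 2 ∈ maximalIdeal O ^ n ∧
      LinearMap.det (ρ'.ρ σ) - 1 ∈ maximalIdeal O ^ n := by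
    intro n
    obtain ⟨m, hm⟩ := exists_level_int (𝒪 := 𝒪) hp hp𝒪 n
    obtain ⟨t, d, ht₁, hd₁, ht₂, hd₂⟩ :=
      exists_int_approx ρ' ρ (fun ℓ => W.apOfModel ℓ) S S₂ hρ' hρ n m σ
    rw [htr₂] at ht₂
    rw [hdet₂] at hd₂
    have ht : (p : ℤ) ^ n ∣ (2 - t) := hm _ (by push_cast; exact ht₂)
    have hd : (p : ℤ) ^ n ∣ (1 - d) := hm _ (by push_cast; exact hd₂)
    have ht' := intCast_mem_pow (B := O) hpO n _ ht
    have hd' := intCast_mem_pow (B := O) hpO n _ hd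
    push_cast at ht' hd'
    constructor
    · have := Ideal.sub_mem _ ht₁ ht'
      have e : LinearMap.trace O ρ'.V (ρ'.ρ σ) - (t : O) - (2 - (t : O)) =
          LinearMap.trace O ρ'.V (ρ'.ρ σ) - 2 := by ring
      rwa [e] at this
    · have := Ideal.sub_mem _ hd₁ hd'
      have e : LinearMap.det (ρ'.ρ σ) - (d : O) - (1 - (d : O)) =
          LinearMap.det (ρ'.ρ σ) - 1 := by ring
      rwa [e] at this
  have htr : LinearMap.trace O ρ'.V (ρ'.ρ σ) = 2 :=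
    sub_eq_zero.mp (eq_zero_of_forall_mem_pow _ fun n => (key n).1)
  have hdet : LinearMap.det (ρ'.ρ σ) = 1 :=
    sub_eq_zero.mp (eq_zero_of_forall_mem_pow _ fun n => (key n).2)
  rw [Fermat.Agent.R.H91.charpoly_eq_of_finrank_two ρ'.finrank_eq, htr, hdet]
  simp only [map_ofNat, map_one]; ring

end Fermat.Agent.S58.H99
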