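import Fermat.Agent.S58.Defs
import Fermat.Agent.S58.H99_Rig
import Fermat.Agent.S58.H99_Tors
import Fermat.Agent.S58.H99_Odd
import Fermat.Agent.S58.H99_Bound
import Fermat.Agent.S58.H99_Plumb
import Fermat.Agent.R.H99_Newform
import Fermat.Agent.S59.H61_Stab
import Fermat.Agent.Lib.FrobExists

/-!
# S58 (conductor-level matching): the wiring (helper99)

`wiring : Stmt_S35 → Stmt_S36 → Stmt_TateUnip → Stmt_S58` (`Stmt_S58` is the frozen type of S58).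

Plan and route: `NOTES/plan/S58.md`.
-/

set_option autoImplicit false

open Polynomial IsLocalRing CuspForm ModularFormClass

namespace Fermat.Agent.S58

open Fermat.Agent.S58.H99 Fermat.Agent.R.H99

theorem mem_maximalIdeal_of_map_mem {O' O'' : Type*} [CommRing O'] [IsLocalRing O']
    [CommRing O''] [IsLocalRing O''] (φ : O' →+* O'') [IsLocalHom φ] {x : O'}
    (h : φ x ∈ maximalIdeal O'') : x ∈ maximalIdeal O' := by
  rw [mem_maximalIdeal, mem_nonunits_iff] at h ⊢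
  exact fun hu => h (hu.map φ)

theorem map_mem_maximalIdeal {O' O'' : Type*} [CommRing O'] [IsLocalRing O']
    [CommRing O''] [IsLocalRing O''] (φ : O' →+* O'') [IsLocalHom φ] {x : O'}
    (h : x ∈ maximalIdeal O') : φ x ∈ maximalIdeal O'' := by
  rw [mem_maximalIdeal, mem_nonunits_iff] at h ⊢
  exact fun hu => h (isUnit_of_map_unit φ x hu)

section Apply

variable {N₀ : ℕ} [NeZero N₀] {f₀ : CuspForm (CongruenceSubgroup.Gamma0 N₀) 2}

/-- Consequences of S35 for a newform with the eigenvalues of `W` outside a finite set `T`. -/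
theorem s35_consequences (h35 : Stmt_S35) (hf₀ : f₀.IsNewform) (W : WeierstrassCurve ℤ)
    (hΔ : W.Δ ≠ 0) (T : Finset ℕ)
    (hfW : ∀ ℓ : ℕ, ℓ.Prime → ℓ ∉ T → ¬ ℓ ∣ N₀ → qCoeff f₀ ℓ = (W.apOfModel ℓ : ℂ))
    (lam : ℕ) [hlamF : Fact lam.Prime] :
    (∀ ℓ : ℕ, ℓ.Prime → ¬ ℓ ∣ N₀ → ℓ ≠ lam → W.IsGoodPrimeFor ℓ →
      ∃ (R : Subring ℂ) (P : Ideal R) (hx : qCoeff f₀ ℓ - (W.apOfModel ℓ : ℂ) ∈ R),
        P ≠ ⊤ ∧ (lam : R) ∈ P ∧ (⟨_, hx⟩ : R) ∈ P) ∧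
    (∀ q : ℕ, q.Prime → q ≠ lam → q ∣ N₀ → ¬ q ^ 2 ∣ N₀ → W.IsGoodPrimeFor q →
      (lam : ℤ) ∣ ((q : ℤ) + 1 - W.apOfModel q) ∨
        (lam : ℤ) ∣ (-((q : ℤ) + 1) - W.apOfModel q)) := by
  classical
  have hlam : lam.Prime := hlamF.out
  set S : Finset ℕ := insert lam N₀.primeFactors with hS
  have hlamS : lam ∈ S := Finset.mem_insert_self _ _
  have hMS : ∀ q : ℕ, q.Prime → q ∣ N₀ → q ∈ S := fun q hq hqN =>
    Finset.mem_insert_of_mem (Nat.mem_primeFactors.mpr ⟨hq, hqN, NeZero.ne N₀⟩)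
  have hnotS : ∀ ℓ : ℕ, ¬ ℓ ∣ N₀ → ℓ ≠ lam → ℓ ∉ (↑S : Set ℕ) := by
    intro ℓ hℓN hℓlam hmem
    rw [Finset.mem_coe, hS, Finset.mem_insert] at hmem
    rcases hmem with h | h
    · exact hℓlam h
    · exact hℓN (Nat.dvd_of_mem_primeFactors h)
  set chig : heckeAlgebra N₀ 2 (↑S : Set ℕ) →+* ℂ := eigenCharC (↑S : Set ℕ) hf₀.1 with hchig_def
  have hchig : ∀ (ℓ : ℕ) (hℓ : ℓ.Prime) (hℓM : ¬ ℓ ∣ N₀) (hℓS : ℓ ∉ (↑S : Set ℕ)),
      chig (heckeAlgebra.T hℓ hℓM hℓS) = qCoeff f₀ ℓ :=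
    fun ℓ hℓ hℓM hℓS => eigenCharC_T _ hf₀.1 hℓ hℓM hℓS
  obtain ⟨P, O', i1, i2, i3, i4, i5, i6, iota, hPmax, hlamP, -, hcomap, hlamO'⟩ :=
    exists_padic_embedding chig hlam
  obtain ⟨O'', j1, j2, j3, j4, j5, j6, j7, j8, j9, -, ρ, hfrob, hst⟩ :=
    h35 hf₀ lam S O' hlamO' chig hchig iota hlamS hMS
  have hlamO'' : (lam : O'') ∈ maximalIdeal O'' := by
    have := map_mem_maximalIdeal (algebraMap O' O'') hlamO'
    rwa [map_natCast] at this
  -- `ρ` has the Frobenius characteristic polynomials of `W` outside `S ∪ T`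
  have hHas : HasFrobOf W ρ (S ∪ T) := by
    intro ℓ hℓ hℓST Q hQ σ hσ
    have hℓS : ℓ ∉ S := fun h => hℓST (Finset.mem_union_left _ h)
    have hℓT : ℓ ∉ T := fun h => hℓST (Finset.mem_union_right _ h)
    have hℓN₀ : ¬ ℓ ∣ N₀ := fun h => hℓS (hMS ℓ hℓ h)
    have hℓS' : ℓ ∉ (↑S : Set ℕ) := by simpa using hℓS
    rw [hfrob ℓ hℓ hℓN₀ hℓS' Q hQ σ hσ]
    have e : (iota.comp chig.rangeRestrict) (heckeAlgebra.T hℓ hℓN₀ hℓS') =
        ((W.apOfModel ℓ : ℤ) : O') := by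
      rw [RingHom.comp_apply, rangeRestrict_eq_intCast chig _ (W.apOfModel ℓ)
        (by rw [hchig, hfW ℓ hℓ hℓT hℓN₀]), map_intCast]
    rw [e, map_intCast]
  have hP3 := H99.stmt_ResFrob lam W hΔ O'' hlamO'' ρ (S ∪ T) hHas
  constructor
  · intro ℓ hℓ hℓN₀ hℓlam hgood
    have hℓS' := hnotS ℓ hℓN₀ hℓlam
    obtain ⟨Q, σ, hQ, hσ⟩ := Fermat.Agent.Lib.FrobExists.exists_place_and_frobenius ℓ hℓ
    have h1 := hP3 ℓ hℓ hℓlam hgood Q hQ σ hσ
    have h2 := (trace_det_of_charpoly_two ρ.finrank_eq _ (hfrob ℓ hℓ hℓN₀ hℓS' Q hQ σ hσ)).1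
    rw [h2] at h1
    have h3 : algebraMap O' O'' (iota (chig.rangeRestrict (heckeAlgebra.T hℓ hℓN₀ hℓS') -
        ((W.apOfModel ℓ : ℤ) : chig.range))) ∈ maximalIdeal O'' := by
      rw [map_sub, map_sub, map_intCast, map_intCast]
      exact h1
    have h4 := mem_maximalIdeal_of_map_mem (algebraMap O' O'') h3
    have h5 : chig.rangeRestrict (heckeAlgebra.T hℓ hℓN₀ hℓS') -
        ((W.apOfModel ℓ : ℤ) : chig.range) ∈ P := by
      rw [← hcomap]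
      exact h4
    have hval : ((chig.rangeRestrict (heckeAlgebra.T hℓ hℓN₀ hℓS') -
        ((W.apOfModel ℓ : ℤ) : chig.range) : chig.range) : ℂ) =
        qCoeff f₀ ℓ - (W.apOfModel ℓ : ℂ) := by
      rw [AddSubgroupClass.coe_sub, RingHom.coe_rangeRestrict, hchig]
      simp
    refine ⟨chig.range, P, hval ▸ Subtype.coe_prop _, hPmax.ne_top, hlamP, ?_⟩
    have e : (⟨qCoeff f₀ ℓ - (W.apOfModel ℓ : ℂ), hval ▸ Subtype.coe_prop _⟩ : chig.range) =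
        chig.rangeRestrict (heckeAlgebra.T hℓ hℓN₀ hℓS') -
          ((W.apOfModel ℓ : ℤ) : chig.range) := Subtype.ext hval.symm
    rw [e]
    exact h5
  · intro q hq hqlam hqN₀ hq2 hgood
    obtain ⟨Q, σ, hQ, hσ⟩ := Fermat.Agent.Lib.FrobExists.exists_place_and_frobenius q hq
    have h1 := hP3 q hq hqlam hgood Q hQ σ hσ
    rcases hst q hq hqlam hqN₀ hq2 Q hQ σ hσ with h | h
    · left
      have h2 := (trace_det_of_charpoly_two ρ.finrank_eq _ h).1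
      rw [h2] at h1
      apply int_dvd_of_mem_maximalIdeal hlam hlamO''
      push_cast
      exact h1
    · right
      have h' : LinearMap.charpoly (ρ.ρ σ) =
          X ^ 2 - C (-((q : O'') + 1)) * X + C ((q : O'')) := by
        rw [h, map_neg]
        ring
      have h2 := (trace_det_of_charpoly_two ρ.finrank_eq _ h').1
      rw [h2] at h1
      apply int_dvd_of_mem_maximalIdeal hlam hlamO''
      push_cast
      exact h1

/-- Consequence of S36 (Carayol) for a newform with the eigenvalues of a semistable curve `W`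
with irreducible `W[p]`: no prime `q ≠ p` divides the level exactly twice. -/
theorem s36_consequence (h36 : Stmt_S36) (hU : Stmt_AdicUnip) (hf₀ : f₀.IsNewform)
    (W : WeierstrassCurve ℤ) (hΔ : W.Δ ≠ 0) (hss : W.IsSemistableModel)
    (p : ℕ) [hpF : Fact p.Prime] (hp2 : p ≠ 2) (hirr : W.ModRepIsIrreducible p) (T : Finset ℕ)
    (hfW : ∀ ℓ : ℕ, ℓ.Prime → ℓ ∉ T → ¬ ℓ ∣ N₀ → qCoeff f₀ ℓ = (W.apOfModel ℓ : ℂ)) :
    ∀ q : ℕ, q.Prime → q ≠ p → N₀.factorization q ≠ 2 := by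
  classical
  intro q hq hqp hfact
  have hp : p.Prime := hpF.out
  set S : Finset ℕ := insert p (N₀.primeFactors ∪ T) with hS
  have hpS : p ∈ S := Finset.mem_insert_self _ _
  have hMS : ∀ q : ℕ, q.Prime → q ∣ N₀ → q ∈ S := fun q hq hqN =>
    Finset.mem_insert_of_mem (Finset.mem_union_left _
      (Nat.mem_primeFactors.mpr ⟨hq, hqN, NeZero.ne N₀⟩))
  have hST : ∀ ℓ : ℕ, ℓ ∉ (↑S : Set ℕ) → ℓ ∉ T := fun ℓ hℓS hℓT =>
    hℓS (Finset.mem_coe.mpr (Finset.mem_insert_of_mem (Finset.mem_union_right _ hℓT)))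
  set chig : heckeAlgebra N₀ 2 (↑S : Set ℕ) →+* ℂ := eigenCharC (↑S : Set ℕ) hf₀.1 with hchig_def
  have hchig : ∀ (ℓ : ℕ) (hℓ : ℓ.Prime) (hℓM : ¬ ℓ ∣ N₀) (hℓS : ℓ ∉ (↑S : Set ℕ)),
      chig (heckeAlgebra.T hℓ hℓM hℓS) = qCoeff f₀ ℓ :=
    fun ℓ hℓ hℓM hℓS => eigenCharC_T _ hf₀.1 hℓ hℓM hℓS
  obtain ⟨P, O', i1, i2, i3, i4, i5, i6, iota, -, -, -, -, hpO'⟩ :=
    exists_padic_embedding chig hp
  have hcoef : ∀ (ℓ : ℕ) (hℓ : ℓ.Prime) (hℓM : ¬ ℓ ∣ N₀) (hℓS : ℓ ∉ (↑S : Set ℕ)),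
      (iota.comp chig.rangeRestrict) (heckeAlgebra.T hℓ hℓM hℓS) =
        ((W.apOfModel ℓ : ℤ) : O') := by
    intro ℓ hℓ hℓM hℓS
    rw [RingHom.comp_apply, rangeRestrict_eq_intCast chig _ (W.apOfModel ℓ)
      (by rw [hchig, hfW ℓ hℓ (hST ℓ hℓS) hℓM]), map_intCast]
  -- the hypothesis `hres` of S36
  have hres : ∀ (O'' : Type) [CommRing O''] [IsDomain O''] [IsDiscreteValuationRing O'']
      [IsAdicComplete (IsLocalRing.maximalIdeal O'') O''] [Finite (IsLocalRing.ResidueField O'')]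
      [CharZero O''] [Algebra O' O''] [Module.Finite O' O''] [IsLocalHom (algebraMap O' O'')],
      Function.Injective (algebraMap O' O'') → ∀ (ρ : GaloisRepAdic O''),
      (∀ (ℓ : ℕ) (hℓ : ℓ.Prime) (_hℓlam : ℓ ≠ p) (hℓM : ¬ ℓ ∣ N₀) (hℓS : ℓ ∉ (↑S : Set ℕ)),
        ∀ A : ValuationSubring (AlgebraicClosure ℚ), A.LiesOverPrime ℓ →
          ∀ σ : AlgebraicClosure ℚ ≃ₐ[ℚ] AlgebraicClosure ℚ, A.IsFrobeniusAt σ ℓ →
            LinearMap.charpoly (ρ.ρ σ) =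
              X ^ 2 - C (algebraMap O' O''
                ((iota.comp chig.rangeRestrict) (CuspForm.heckeAlgebra.T hℓ hℓM hℓS))) * X
                + C ((ℓ : O'')))
      → ρ.residual.IsAbsolutelyIrreducible ∧ ρ.residual.IsOdd := by
    intro O'' _ _ _ _ _ _ _ _ _ _ ρ hρ
    have hpO'' : (p : O'') ∈ maximalIdeal O'' := by
      have := map_mem_maximalIdeal (algebraMap O' O'') hpO'
      rwa [map_natCast] at this
    have hHas : HasFrobOf W ρ S := by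
      intro ℓ hℓ hℓS Q hQ σ hσ
      have hℓp : ℓ ≠ p := fun h => hℓS (h ▸ hpS)
      have hℓN₀ : ¬ ℓ ∣ N₀ := fun h => hℓS (hMS ℓ hℓ h)
      have hℓS' : ℓ ∉ (↑S : Set ℕ) := by simpa using hℓS
      rw [hρ ℓ hℓ hℓp hℓN₀ hℓS' Q hQ σ hσ, hcoef ℓ hℓ hℓN₀ hℓS', map_intCast]
    exact H99.stmt_ResIrr p hp2 W hΔ hirr O'' hpO'' ρ S hHas
  obtain ⟨O'', j1, j2, j3, j4, j5, j6, j7, j8, j9, -, ρ, hfrob, hnu⟩ :=
    h36 hf₀ p S O' hpO' hp2 chig hchig iota hpS hMS hres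
  have hpO'' : (p : O'') ∈ maximalIdeal O'' := by
    have := map_mem_maximalIdeal (algebraMap O' O'') hpO'
    rwa [map_natCast] at this
  have hHas : HasFrobOf W ρ S := by
    intro ℓ hℓ hℓS Q hQ σ hσ
    have hℓN₀ : ¬ ℓ ∣ N₀ := fun h => hℓS (hMS ℓ hℓ h)
    have hℓS' : ℓ ∉ (↑S : Set ℕ) := by simpa using hℓS
    rw [hfrob ℓ hℓ hℓN₀ hℓS' Q hQ σ hσ, hcoef ℓ hℓ hℓN₀ hℓS', map_intCast]
  exact hnu q hq hqp hfact (hU p W hΔ hss O'' hpO'' ρ S hHas q hq hqp)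

end Apply

/-- **S58 from S35, S36 and the Tate module.** -/
theorem wiring_of_adicUnip (h35 : Stmt_S35) (h36 : Stmt_S36) (hU : Stmt_AdicUnip) : Stmt_S58 := by
  classical
  intro W hss N p hpF hp2 hirr hp2N hN hbad hN3
  have hp : p.Prime := hpF.out
  -- `N ≠ 0`, `Δ ≠ 0`
  have hN0 : N ≠ 0 := by
    rintro rfl
    exact hN3 2 Nat.prime_two (dvd_zero _)
  have hΔ : W.Δ ≠ 0 := by
    intro h0
    obtain ⟨ℓ, hℓ1, hℓ2⟩ := Nat.exists_infinite_primes (N + 1)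
    have h1 : ℓ ∣ N := hbad ℓ hℓ2 (by rw [h0]; exact dvd_zero _)
    have h2 : ℓ ≤ N := Nat.le_of_dvd (Nat.pos_of_ne_zero hN0) h1
    omega
  have : NeZero N := ⟨hN0⟩
  obtain ⟨f, hf, hfW⟩ := hN
  obtain ⟨N₀, hN₀N, f₀, hf₀, hf₀f⟩ := exists_isNewform hf
  have hN₀0 : N₀ ≠ 0 := fun h => hN0 (by rw [h] at hN₀N; exact Nat.eq_zero_of_zero_dvd hN₀N)
  have : NeZero N₀ := ⟨hN₀0⟩
  set T : Finset ℕ := N.primeFactors with hT
  have hnotT : ∀ ℓ : ℕ, ℓ.Prime → ℓ ∉ T → ¬ ℓ ∣ N := fun ℓ hℓ hℓT hdvd =>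
    hℓT (Nat.mem_primeFactors.mpr ⟨hℓ, hdvd, hN0⟩)
  have hf₀W : ∀ ℓ : ℕ, ℓ.Prime → ℓ ∉ T → ¬ ℓ ∣ N₀ → qCoeff f₀ ℓ = (W.apOfModel ℓ : ℂ) := by
    intro ℓ hℓ hℓT _
    have hℓN := hnotT ℓ hℓ hℓT
    rw [hf₀f ℓ hℓ hℓN]
    exact hfW ℓ hℓ (fun hdvd => hℓN (hbad ℓ hℓ hdvd)) hℓN
  -- (A2) the level `N₀` is squarefree
  have hsq : ∀ q : ℕ, q.Prime → ¬ q ^ 2 ∣ N₀ := by
    intro q hq hdvd
    have hle2 : N₀.factorization q ≤ 2 := by
      by_contra hcon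
      push Not at hcon
      exact hN3 q hq (((hq.pow_dvd_iff_le_factorization hN₀0).mpr hcon).trans hN₀N)
    have hge2 : 2 ≤ N₀.factorization q := (hq.pow_dvd_iff_le_factorization hN₀0).mp hdvd
    by_cases hqp : q = p
    · subst hqp
      exact hp2N (hdvd.trans hN₀N)
    · exact s36_consequence h36 hU hf₀ W hΔ hss p hp2 hirr T hf₀W q hq hqp
        (le_antisymm hle2 hge2)
  -- (A1) every prime divisor of `N₀` is bad
  have hbadN₀ : ∀ q : ℕ, q.Prime → q ∣ N₀ → (q : ℤ) ∣ W.Δ := by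
    intro q hq hqN₀
    by_contra hgood
    obtain ⟨lam, hlam1, hlam2⟩ := Nat.exists_infinite_primes (2 * q + 3)
    have : Fact lam.Prime := ⟨hlam2⟩
    have : Fact q.Prime := ⟨hq⟩
    have hqlam : q ≠ lam := by omega
    obtain ⟨hlo, hhi⟩ := apOfModel_bounds W q
    rcases (s35_consequences h35 hf₀ W hΔ T hf₀W lam).2 q hq hqlam hqN₀ (hsq q hq) hgood
      with h | h
    · have h1 : (0 : ℤ) < (q : ℤ) + 1 - W.apOfModel q := by omega
      have h2 := Int.le_of_dvd h1 h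
      omega
    · have h' : (lam : ℤ) ∣ ((q : ℤ) + 1 + W.apOfModel q) := by
        have := (dvd_neg (α := ℤ)).mpr h
        have e : -(-((q : ℤ) + 1) - W.apOfModel q) = (q : ℤ) + 1 + W.apOfModel q := by ring
        rwa [e] at this
      have h1 : (0 : ℤ) < (q : ℤ) + 1 + W.apOfModel q := by omega
      have h2 := Int.le_of_dvd h1 h'
      omega
  -- `N₀` divides the conductor
  have hC0 : W.conductorLevel ≠ 0 := W.conductorLevel_pos.ne'
  have hN₀C : N₀ ∣ W.conductorLevel := by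
    rw [← Nat.factorization_le_iff_dvd hN₀0 hC0, Finsupp.le_def]
    intro q
    by_cases hq : q.Prime
    · by_cases hqN₀ : q ∣ N₀
      · have h1 : N₀.factorization q ≤ 1 := by
          by_contra hcon
          push Not at hcon
          exact hsq q hq ((hq.pow_dvd_iff_le_factorization hN₀0).mpr hcon)
        have h2 : q ∣ W.conductorLevel :=
          (W.prime_dvd_conductorLevel_iff hΔ hq).mpr (hbadN₀ q hq hqN₀)
        have h3 : 1 ≤ W.conductorLevel.factorization q :=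
          (hq.dvd_iff_one_le_factorization hC0).mp h2
        omega
      · rw [Nat.factorization_eq_zero_of_not_dvd hqN₀]
        exact Nat.zero_le _
    · rw [Nat.factorization_eq_zero_of_not_prime _ hq]
      exact Nat.zero_le _
  -- the eigenvalues at ALL good primes
  have hall : ∀ ℓ : ℕ, ℓ.Prime → W.IsGoodPrimeFor ℓ → qCoeff f₀ ℓ = (W.apOfModel ℓ : ℂ) := by
    intro ℓ hℓ hgood
    have hℓN₀ : ¬ ℓ ∣ N₀ := fun h => hgood (hbadN₀ ℓ hℓ h)
    have hint : IsIntegral ℤ (qCoeff f₀ ℓ - (W.apOfModel ℓ : ℂ)) := by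
      have h1 : IsIntegral ℤ (qCoeff f₀ ℓ) := by
        have hℓS : ℓ ∉ (∅ : Set ℕ) := Set.notMem_empty ℓ
        have := isIntegral_apply (eigenCharC (∅ : Set ℕ) hf₀.1) (heckeAlgebra.T hℓ hℓN₀ hℓS)
        rwa [eigenCharC_T] at this
      have h2 : IsIntegral ℤ ((W.apOfModel ℓ : ℤ) : ℂ) := isIntegral_algebraMap
      exact h1.sub h2
    have h0 := eq_zero_of_forall_prime_mem _ hint ℓ (fun lam hlam hB => by
      have : Fact lam.Prime := ⟨hlam⟩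
      exact (s35_consequences h35 hf₀ W hΔ T hf₀W lam).1 ℓ hℓ hℓN₀ (by omega) hgood)
    exact sub_eq_zero.mp h0
  -- raise the level to the conductor
  have hCsq : Squarefree W.conductorLevel := W.squarefree_conductorLevel
  set D : ℕ := W.conductorLevel / N₀ with hD
  have hND : N₀ * D = W.conductorLevel := Nat.mul_div_cancel' hN₀C
  have hDsq : Squarefree D := hCsq.squarefree_of_dvd (Nat.div_dvd_of_dvd hN₀C)
  have hprod : ∏ q ∈ D.primeFactors, q = D := Nat.prod_primeFactors_of_squarefree hDsq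
  have hs : ∀ q ∈ D.primeFactors, q.Prime ∧ ¬ q ∣ N₀ := by
    intro q hq
    have hqp : q.Prime := Nat.prime_of_mem_primeFactors hq
    refine ⟨hqp, fun hqN₀ => ?_⟩
    have hqD : q ∣ D := Nat.dvd_of_mem_primeFactors hq
    have h1 : q * q ∣ W.conductorLevel := by
      rw [← hND]
      exact mul_dvd_mul hqN₀ hqD
    exact hqp.one_lt.ne' (Nat.isUnit_iff.mp (hCsq q h1))
  obtain ⟨g, hg, hgf⟩ := Fermat.Agent.S59.stab_finset Fermat.Agent.S59.H61.stmt_Stab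
    D.primeFactors N₀ f₀ hf₀.1 hs
  have e : N₀ * ∏ q ∈ D.primeFactors, q = W.conductorLevel := by rw [hprod, hND]
  have hmod : W.IsModularModelOfLevel (N₀ * ∏ q ∈ D.primeFactors, q) := by
    refine ⟨g, hg, fun ℓ hℓ hgood _ => ?_⟩
    have hℓD : ℓ ∉ D.primeFactors := by
      intro hmem
      have h1 : ℓ ∣ D := Nat.dvd_of_mem_primeFactors hmem
      have h2 : ℓ ∣ W.conductorLevel := h1.trans (Nat.div_dvd_of_dvd hN₀C)
      exact hgood ((W.prime_dvd_conductorLevel_iff hΔ hℓ).mp h2)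
    rw [hgf ℓ hℓ hℓD, hall ℓ hℓ hgood]
  rw [e] at hmod
  exact hmod

/-- **S58 from S35, S36 and the Tate module** (`Stmt_TateUnip`: Frobenius characteristic
polynomials and unipotent inertia of the `p`-adic Tate module of a semistable curve). -/
theorem wiring (h35 : Stmt_S35) (h36 : Stmt_S36) (hT : Stmt_TateUnip) : Stmt_S58 :=
  wiring_of_adicUnip h35 h36 (H99.stmt_AdicUnip_of_tate hT)

end Fermat.Agent.S58
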